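import Fermat.Agent.SiegelWalfisz.Twisted
import Fermat.Agent.ZeroFreeRegion.ErrorTerm
import Fermat.Agent.PrimeNumberTheorem.Progression
import Mathlib.NumberTheory.DirichletCharacter.Orthogonality

/-!
# The Siegel-Walfisz theorem

`ψ (x; q, a) = x / φ q + O (x exp (-c (log x) ^ (1/15)))` for `q ≤ (log x) ^ A`, from the twisted
smoothed sums by orthogonality and monotonicity.
-/

set_option autoImplicit false

noncomputable section

namespace FA.SiegelWalfisz

open Finset
open scoped ArithmeticFunction.vonMangoldt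
open ArithmeticFunction.vonMangoldt (residueClass residueClass_nonneg residueClass_apply)

/-- The first moment of `ψ (x; q, a)`. -/
def classMoment {q : ℕ} (a : ZMod q) (x : ℝ) : ℝ :=
  ∑ n ∈ Icc 1 ⌊x⌋₊, residueClass a n * (x - n)

/-- The prime powers `≤ N` not prime to `q`. -/
theorem card_bad_le (q N : ℕ) [NeZero q] :
    ((Icc 1 N).filter fun n => IsPrimePow n ∧ ¬ n.Coprime q).card ≤ q * Nat.log 2 N := by
  refine (card_le_card (t := (q.primeFactors ×ˢ Icc 1 (Nat.log 2 N)).image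
    fun z => z.1 ^ z.2) fun n hn => ?_).trans (card_image_le.trans ?_)
  · rw [mem_filter, mem_Icc] at hn
    obtain ⟨p, k, hp, hk, rfl⟩ := (isPrimePow_nat_iff _).1 hn.2.1
    refine mem_image.2 ⟨(p, k), mem_product.2 ⟨?_, mem_Icc.2 ⟨hk, ?_⟩⟩, rfl⟩
    · exact Nat.mem_primeFactors.2 ⟨hp, (Nat.Prime.dvd_iff_not_coprime hp).2
        fun h => hn.2.2 (h.pow_left k), NeZero.ne q⟩
    · exact Nat.le_log_of_pow_le one_lt_two
        ((Nat.pow_le_pow_left hp.two_le k).trans hn.1.2)
  · rw [card_product, Nat.card_Icc, Nat.add_sub_cancel]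
    refine Nat.mul_le_mul_right _ ?_
    refine (card_le_card (t := Icc 1 q) fun p hp => mem_Icc.2
      ⟨(Nat.prime_of_mem_primeFactors hp).one_lt.le, Nat.le_of_mem_primeFactors hp⟩).trans ?_
    simp

/-- The trivial character against all of `ψ₁`. -/
theorem trivial_moment_le (q : ℕ) [NeZero q] {x : ℝ} (hx : 3 ≤ x) :
    ‖(x : ℂ) * smoothSum (fun n => (1 : DirichletCharacter ℂ q) n * (Λ n : ℂ)) x -
      (ZeroFree.psiOne x : ℂ)‖ ≤ 2 * q * x * Real.log x ^ 2 := by
  classical
  have hx0 : 0 < x := by linarith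
  have hl := one_le_log hx
  rw [smoothSum, ZeroFree.psiOne, Complex.ofReal_sum, mul_sum, ← sum_sub_distrib]
  refine (norm_sum_le _ _).trans ((sum_le_sum (g := fun n : ℕ =>
    if IsPrimePow n ∧ ¬ n.Coprime q then x * Real.log x else 0) fun n hn => ?_).trans ?_)
  · rw [mem_Icc] at hn
    have hnx : (n : ℝ) ≤ x := (Nat.cast_le.2 hn.2).trans (Nat.floor_le hx0.le)
    by_cases hc : n.Coprime q
    · rw [if_neg (fun h => h.2 hc), MulChar.one_apply ((ZMod.isUnit_iff_coprime n q).2 hc)]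
      refine le_of_eq (norm_eq_zero.2 ?_)
      push_cast
      have hxC : (x : ℂ) ≠ 0 := Complex.ofReal_ne_zero.2 hx0.ne'
      field_simp
      ring
    · rw [MulChar.map_nonunit _ (fun h => hc ((ZMod.isUnit_iff_coprime n q).1 h))]
      simp only [zero_mul, mul_zero, zero_sub, norm_neg, Complex.norm_real, Real.norm_eq_abs]
      rw [abs_mul, abs_of_nonneg (sub_nonneg.2 hnx),
        abs_of_nonneg ArithmeticFunction.vonMangoldt_nonneg]
      by_cases hp : IsPrimePow n
      · rw [if_pos ⟨hp, hc⟩, mul_comm x]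
        refine mul_le_mul (ArithmeticFunction.vonMangoldt_le_log.trans ?_) (by simp)
          (sub_nonneg.2 hnx) (by linarith)
        exact Real.log_le_log (Nat.cast_pos.2 hn.1) hnx
      · rw [ArithmeticFunction.vonMangoldt_eq_zero_iff.2 hp, zero_mul, if_neg (fun h => hp h.1)]
  · rw [← sum_filter, sum_const, nsmul_eq_mul]
    have h1 := (Nat.cast_le (α := ℝ)).2 (card_bad_le q ⌊x⌋₊)
    have h2 : (Nat.log 2 ⌊x⌋₊ : ℝ) ≤ 2 * Real.log x := by
      have h3 : ((2 : ℝ) ^ Nat.log 2 ⌊x⌋₊) ≤ x := by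
        refine le_trans ?_ (Nat.floor_le hx0.le)
        exact_mod_cast Nat.pow_log_le_self 2 (Nat.one_le_iff_ne_zero.1
          (Nat.le_floor (by push_cast; linarith)))
      have h4 := Real.log_le_log (by positivity) h3
      rw [Real.log_pow] at h4
      have h5 : (0 : ℝ) ≤ Nat.log 2 ⌊x⌋₊ := Nat.cast_nonneg _
      nlinarith [Real.log_two_gt_d9]
    push_cast at h1
    refine (mul_le_mul_of_nonneg_right (h1.trans (mul_le_mul_of_nonneg_left h2 (Nat.cast_nonneg q)))
      (by positivity)).trans (le_of_eq ?_)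
    ring

/-- Orthogonality. -/
theorem classMoment_eq {q : ℕ} [NeZero q] {a : ZMod q} (ha : IsUnit a) {x : ℝ} (hx : x ≠ 0) :
    ((q.totient : ℝ) * classMoment a x : ℝ) = ∑ χ : DirichletCharacter ℂ q,
      χ a⁻¹ * ((x : ℂ) * smoothSum (fun n => χ n * (Λ n : ℂ)) x) := by
  have hφ : (q.totient : ℂ) ≠ 0 := Nat.cast_ne_zero.2 (Nat.totient_pos.2 (NeZero.pos q)).ne'
  simp only [classMoment, smoothSum, mul_sum]
  rw [sum_comm, Complex.ofReal_sum]
  refine sum_congr rfl fun n _ => ?_
  push_cast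
  rw [residueClass_apply ha n, ← mul_assoc, ← mul_assoc, mul_inv_cancel₀ hφ, one_mul, sum_mul]
  refine sum_congr rfl fun χ _ => ?_
  have hxC : (x : ℂ) ≠ 0 := Complex.ofReal_ne_zero.2 hx
  field_simp

/-- **The first moment.** -/
theorem exists_classMoment_le (A : ℝ) (hA : 0 < A) : ∃ c C, 0 < c ∧ c ≤ 1 ∧ 0 < C ∧
    ∀ (q : ℕ) [NeZero q] (a : ZMod q), IsUnit a → ∀ x : ℝ, 3 ≤ x →
    (q : ℝ) ≤ (2 * Real.log x) ^ A →
      |classMoment a x - (q.totient : ℝ)⁻¹ * (x ^ 2 / 2)| ≤
        C * x ^ 2 * Real.exp (-(c * gauge x)) := by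
  obtain ⟨c₀, C₀, hc₀, hC₀, h₀⟩ := exists_twisted_le A hA
  obtain ⟨c₁, C₁, hc₁, -, hC₁, h₁⟩ := ZeroFree.exists_psiOne_le
  obtain ⟨d, hd⟩ : ∃ d, d = min (min c₀ c₁) (1 / 2) := ⟨_, rfl⟩
  have hd0 : 0 < d := hd ▸ lt_min (lt_min hc₀ hc₁) (by norm_num)
  have hd12 : d ≤ 1 / 2 := hd ▸ min_le_right _ _
  obtain ⟨K, hK, habs⟩ := exists_rpow_absorb (15 * A) hd0
  obtain ⟨K', hK', habs'⟩ := exists_rpow_mul_exp_le (15 * A + 30) (show (0 : ℝ) < 1 / 2 by norm_num)
  refine ⟨d / 2, 2 * 2 ^ A * K' + C₁ + C₀ * 2 ^ A * K, half_pos hd0, by linarith, by positivity,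
    fun q _ a ha x hx hq => ?_⟩
  classical
  obtain ⟨hu1, hul, hu15⟩ := gauge_facts hx
  obtain ⟨u, hu⟩ : ∃ u, u = gauge x := ⟨_, rfl⟩
  rw [← hu] at hu1 hul hu15 ⊢
  have hx0 : 0 < x := by linarith
  have hu0 : 0 < u := by linarith
  have hqu : (q : ℝ) ≤ 2 ^ A * u ^ (15 * A) := by
    refine hq.trans (le_of_eq ?_)
    rw [Real.mul_rpow two_pos.le (by linarith), ← hu15, ← Real.rpow_natCast,
      ← Real.rpow_mul hu0.le]
    norm_num
  have hφ : (1 : ℝ) ≤ q.totient := by exact_mod_cast Nat.totient_pos.2 (NeZero.pos q)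
  obtain ⟨E, hE⟩ : ∃ E, E = Real.exp (-(d / 2 * u)) := ⟨_, rfl⟩
  rw [← hE]
  have hle1 : ∀ z, d ≤ z → Real.exp (-(z * u)) ≤ Real.exp (-(d * u)) := fun z hz =>
    Real.exp_le_exp.2 (neg_le_neg (mul_le_mul_of_nonneg_right hz hu0.le))
  have hdE : Real.exp (-(d * u)) ≤ E := hE ▸ Real.exp_le_exp.2 (by
    have : 0 ≤ d * u := by positivity
    linarith)
  -- the trivial character against `ψ₁`
  have p1 : 2 * (q : ℝ) * x * Real.log x ^ 2 ≤ 2 * 2 ^ A * K' * x ^ 2 * E := by
    have h := habs' u hu1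
    rw [Real.rpow_add hu0, show (30 : ℝ) = ((30 : ℕ) : ℝ) by norm_num, Real.rpow_natCast] at h
    have h2 : x * Real.exp (1 / 2 * u) ≤ x ^ 2 * E := by
      have h3 : Real.exp (1 / 2 * u) * Real.exp (d / 2 * u) ≤ x := by
        rw [← Real.exp_add, ← Real.le_log_iff_exp_le hx0]
        have := mul_le_mul_of_nonneg_right hd12 hu0.le
        linarith
      rw [hE, Real.exp_neg, ← div_eq_mul_inv, le_div_iff₀ (Real.exp_pos _)]
      calc x * Real.exp (1 / 2 * u) * Real.exp (d / 2 * u)
          = x * (Real.exp (1 / 2 * u) * Real.exp (d / 2 * u)) := by ring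
        _ ≤ _ := by rw [sq]; gcongr
    rw [← hu15, ← pow_mul]
    rw [Real.exp_neg, ← div_eq_mul_inv, div_le_iff₀ (Real.exp_pos _)] at h
    calc 2 * (q : ℝ) * x * u ^ (15 * 2) ≤ 2 * (2 ^ A * u ^ (15 * A)) * x * u ^ (15 * 2) := by
          gcongr
      _ = 2 * 2 ^ A * x * (u ^ (15 * A) * u ^ 30) := by ring
      _ ≤ 2 * 2 ^ A * x * (K' * Real.exp (1 / 2 * u)) :=
          mul_le_mul_of_nonneg_left h (by positivity)
      _ = 2 * 2 ^ A * K' * (x * Real.exp (1 / 2 * u)) := by ring
      _ ≤ _ := by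
          rw [mul_assoc (2 * 2 ^ A * K') (x ^ 2)]
          exact mul_le_mul_of_nonneg_left h2 (by positivity)
  have p2 : |ZeroFree.psiOne x - x ^ 2 / 2| ≤ C₁ * x ^ 2 * E := by
    refine (h₁ x hx).trans (mul_le_mul_of_nonneg_left (le_trans ?_ hdE) (by positivity))
    refine le_trans (Real.exp_le_exp.2 (neg_le_neg (mul_le_mul_of_nonneg_left ?_ hc₁.le)))
      (hle1 c₁ (hd ▸ (min_le_left _ _).trans (min_le_right _ _)))
    rw [hu]
    exact Real.rpow_le_rpow_of_exponent_le (one_le_log hx) (by norm_num)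
  -- the other characters
  have p3 : ∑ χ ∈ ({1}ᶜ : Finset (DirichletCharacter ℂ q)),
      ‖χ a⁻¹ * ((x : ℂ) * smoothSum (fun n => χ n * (Λ n : ℂ)) x)‖ ≤
        C₀ * 2 ^ A * K * x ^ 2 * E := by
    refine (sum_le_card_nsmul _ _ (x * (C₀ * x * Real.exp (-(d * u)))) fun χ hχ => ?_).trans ?_
    · rw [norm_mul, norm_mul, Complex.norm_real, Real.norm_of_nonneg hx0.le]
      refine (mul_le_of_le_one_left (by positivity) (χ.norm_le_one _)).trans
        (mul_le_mul_of_nonneg_left ((h₀ q χ (by simpa using hχ) x hx hq).trans ?_) hx0.le)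
      rw [← hu]
      exact mul_le_mul_of_nonneg_left (hle1 c₀ (hd ▸ (min_le_left _ _).trans (min_le_left _ _)))
        (by positivity)
    · rw [nsmul_eq_mul]
      have h4 : (({1}ᶜ : Finset (DirichletCharacter ℂ q)).card : ℝ) ≤ q := by
        refine Nat.cast_le.2 ((card_le_univ _).trans ?_)
        rw [← Nat.card_eq_fintype_card,
          DirichletCharacter.card_eq_totient_of_hasEnoughRootsOfUnity]
        exact Nat.totient_le q
      calc (({1}ᶜ : Finset (DirichletCharacter ℂ q)).card : ℝ) *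
            (x * (C₀ * x * Real.exp (-(d * u))))
          ≤ 2 ^ A * u ^ (15 * A) * (x * (C₀ * x * Real.exp (-(d * u)))) :=
            mul_le_mul_of_nonneg_right (h4.trans hqu) (by positivity)
        _ = C₀ * 2 ^ A * x ^ 2 * (u ^ (15 * A) * Real.exp (-(d * u))) := by ring
        _ ≤ C₀ * 2 ^ A * x ^ 2 * (K * E) :=
            mul_le_mul_of_nonneg_left (hE ▸ habs u hu1) (by positivity)
        _ = _ := by ring
  -- assembly
  have hmain : |(q.totient : ℝ) * classMoment a x - x ^ 2 / 2| ≤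
      (2 * 2 ^ A * K' + C₁ + C₀ * 2 ^ A * K) * x ^ 2 * E := by
    rw [← Real.norm_eq_abs, ← Complex.norm_real, Complex.ofReal_sub, classMoment_eq ha hx0.ne',
      Fintype.sum_eq_add_sum_compl 1, add_sub_right_comm]
    have ha' : IsUnit a⁻¹ := isUnit_of_dvd_one ⟨a, (ZMod.inv_mul_of_unit a ha).symm⟩
    rw [MulChar.one_apply ha', one_mul]
    refine (norm_add_le _ _).trans ((add_le_add
      (norm_sub_le_norm_sub_add_norm_sub _ (ZeroFree.psiOne x : ℂ) _)
      (norm_sum_le _ _)).trans ?_)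
    rw [← Complex.ofReal_sub, Complex.norm_real, Real.norm_eq_abs]
    linarith [trivial_moment_le q hx]
  rw [show classMoment a x - (q.totient : ℝ)⁻¹ * (x ^ 2 / 2) =
    ((q.totient : ℝ) * classMoment a x - x ^ 2 / 2) / q.totient by field_simp,
    abs_div, abs_of_pos (by linarith : (0 : ℝ) < q.totient)]
  exact (div_le_self (abs_nonneg _) hφ).trans hmain

/-- From the moment to the sum, by monotonicity. -/
theorem desmooth {q : ℕ} [NeZero q] (a : ZMod q) {x h m B : ℝ} (hx : 0 ≤ x) (hh : 0 < h)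
    (hhx : h ≤ x) (hm1 : m ≤ 1)
    (hB : ∀ z, x - h ≤ z → z ≤ x + h → |classMoment a z - m * (z ^ 2 / 2)| ≤ B) :
    |PNT.psiClass a x - m * x| ≤ h + 2 * B / h := by
  have key : ∀ u v, 0 ≤ u → u ≤ v → (v - u) * PNT.psiClass a u ≤
      classMoment a v - classMoment a u ∧
        classMoment a v - classMoment a u ≤ (v - u) * PNT.psiClass a v := by
    intro u v hu huv
    have hv : 0 ≤ v := hu.trans huv
    have hp : ∀ z, 0 ≤ z → z ≤ v →
        classMoment a z = ∑ n ∈ Icc 1 ⌊v⌋₊, residueClass a n * max (z - n) 0 := by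
      intro z hz hzv
      rw [classMoment, ← sum_subset (Icc_subset_Icc_right (Nat.floor_mono hzv))
        (f := fun n : ℕ => residueClass a n * max (z - n) 0) fun n hn hn' => ?_]
      · refine sum_congr rfl fun n hn => ?_
        rw [mem_Icc] at hn
        rw [max_eq_left (sub_nonneg.2 ((Nat.cast_le.2 hn.2).trans (Nat.floor_le hz)))]
      · rw [mem_Icc] at hn hn'
        have : z < n := Nat.lt_of_floor_lt (by omega)
        rw [max_eq_right (by linarith), mul_zero]
    rw [hp v hv le_rfl, hp u hu huv, ← sum_sub_distrib]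
    simp_rw [← mul_sub]
    constructor
    · rw [PNT.psiClass, mul_sum]
      refine le_trans (le_of_eq (sum_congr rfl fun n hn => ?_))
        (sum_le_sum_of_subset_of_nonneg (Icc_subset_Icc_right (Nat.floor_mono huv))
          fun n _ _ => ?_)
      · rw [mem_Icc] at hn
        have : (n : ℝ) ≤ u := (Nat.cast_le.2 hn.2).trans (Nat.floor_le hu)
        rw [max_eq_left (by linarith), max_eq_left (by linarith)]
        ring
      · exact mul_nonneg (residueClass_nonneg a n)
          (sub_nonneg.2 (max_le_max_right _ (by linarith)))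
    · rw [PNT.psiClass, mul_sum]
      refine sum_le_sum fun n hn => ?_
      rw [mem_Icc] at hn
      have : (n : ℝ) ≤ v := (Nat.cast_le.2 hn.2).trans (Nat.floor_le hv)
      rw [mul_comm (v - u)]
      refine mul_le_mul_of_nonneg_left ?_ (residueClass_nonneg a n)
      rw [max_eq_left (by linarith : (0 : ℝ) ≤ v - n)]
      linarith [le_max_left (u - n) 0]
  have g0 := abs_le.1 (hB x (by linarith) (by linarith))
  have gp := abs_le.1 (hB (x + h) (by linarith) le_rfl)
  have gm := abs_le.1 (hB (x - h) le_rfl (by linarith))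
  have up := (key x (x + h) hx (by linarith)).1
  have lo := (key (x - h) x (by linarith) (by linarith)).2
  have hmh : m * h * h ≤ h * h := by
    have := mul_le_mul_of_nonneg_right hm1 (mul_nonneg hh.le hh.le)
    linarith
  rw [abs_le]
  constructor
  · refine le_of_mul_le_mul_left ?_ hh
    have : h * (2 * B / h) = 2 * B := by field_simp
    nlinarith [mul_nonneg hh.le hh.le]
  · refine le_of_mul_le_mul_left ?_ hh
    have : h * (2 * B / h) = 2 * B := by field_simp
    nlinarith [mul_nonneg hh.le hh.le]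

/-- **The Siegel-Walfisz theorem.** -/
theorem exists_psiClass_error (A : ℝ) (hA : 0 < A) : ∃ c C, 0 < c ∧ 0 < C ∧
    ∀ (q : ℕ) [NeZero q] (a : ZMod q), IsUnit a → ∀ x : ℝ, 2 ≤ x →
    (q : ℝ) ≤ Real.log x ^ A →
      |PNT.psiClass a x - (q.totient : ℝ)⁻¹ * x| ≤ C * x * Real.exp (-(c * gauge x)) := by
  obtain ⟨c, C, hc, hc1, hC, h⟩ := exists_classMoment_le A hA
  obtain ⟨B, hB⟩ : ∃ B : ℝ, B = Real.log 4 + 5 := ⟨_, rfl⟩
  have hB5 : 5 ≤ B := by
    rw [hB]
    linarith [Real.log_nonneg (by norm_num : (1 : ℝ) ≤ 4)]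
  refine ⟨c / 4, 1 + 8 * C + 2 * B + B * Real.exp 2, by positivity, by positivity,
    fun q _ a ha x hx hq => ?_⟩
  have hm : 0 ≤ (q.totient : ℝ)⁻¹ := by positivity
  have hm1 : (q.totient : ℝ)⁻¹ ≤ 1 :=
    inv_le_one_of_one_le₀ (by exact_mod_cast Nat.totient_pos.2 (NeZero.pos q))
  have hx0 : 0 < x := by linarith
  obtain ⟨η, hη⟩ : ∃ η, η = Real.exp (-(c / 4 * gauge x)) := ⟨_, rfl⟩
  rw [← hη]
  have hη0 : 0 < η := hη ▸ Real.exp_pos _
  have htriv : |PNT.psiClass a x - (q.totient : ℝ)⁻¹ * x| ≤ B * x := by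
    have h1 := PNT.psiClass_le a hx0.le
    have h2 := PNT.psiClass_nonneg a x
    have h3 := mul_le_of_le_one_left hx0.le hm1
    have h4 : 0 ≤ (q.totient : ℝ)⁻¹ * x := by positivity
    have h5 : 0 ≤ Real.log 4 * x := mul_nonneg (Real.log_nonneg (by norm_num)) hx0.le
    rw [hB, abs_le]
    constructor <;> linarith
  have hnn1 : 0 ≤ B * Real.exp 2 * (x * η) := by positivity
  have hnn2 : 0 ≤ B * (x * η) := by positivity
  have hnn3 : 0 ≤ C * (x * η) := by positivity
  have hnn4 : 0 ≤ x * η := by positivity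
  rcases lt_or_ge x 6 with hx6 | hx6
  · have hsmall : 1 ≤ Real.exp 2 * η := by
      rw [hη, ← Real.exp_add]
      refine Real.one_le_exp ?_
      have h0 : 0 ≤ Real.log x := Real.log_nonneg (by linarith)
      have h3 : gauge x ≤ 8 := by
        refine (Real.rpow_le_rpow h0 (Real.log_le_sub_one_of_pos hx0) (by norm_num)).trans ?_
        refine (Real.rpow_le_rpow (by linarith) (show x - 1 ≤ 8 by linarith) (by norm_num)).trans ?_
        exact Real.rpow_le_self_of_one_le (by norm_num) (by norm_num)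
      have h4 : c / 4 * gauge x ≤ 1 / 4 * 8 :=
        mul_le_mul (by linarith) h3 (Real.rpow_nonneg h0 _) (by norm_num)
      linarith
    refine htriv.trans ?_
    have h4 : B * x ≤ B * Real.exp 2 * (x * η) :=
      calc B * x = B * x * 1 := (mul_one _).symm
        _ ≤ B * x * (Real.exp 2 * η) := mul_le_mul_of_nonneg_left hsmall (by positivity)
        _ = _ := by ring
    linarith
  rcases lt_or_ge (1 / 2) η with hbig | hsm
  · refine htriv.trans ?_
    have h5 : B * x * 1 ≤ B * x * (2 * η) :=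
      mul_le_mul_of_nonneg_left (by linarith) (by positivity)
    linarith
  have hd0 : 0 < x * η := mul_pos hx0 hη0
  have hdx : x * η ≤ x / 2 := by
    have := mul_le_mul_of_nonneg_left hsm hx0.le
    linarith
  have hlogx : 0 ≤ Real.log x := Real.log_nonneg (by linarith)
  have hgap : ∀ z, x - x * η ≤ z → z ≤ x + x * η →
      |classMoment a z - (q.totient : ℝ)⁻¹ * (z ^ 2 / 2)| ≤ 4 * C * x ^ 2 * (η * η) := by
    intro z hz hz'
    have hz3 : 3 ≤ z := by linarith
    have hlz : Real.log x ≤ 2 * Real.log z := by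
      have h4 : Real.log x ≤ Real.log 2 + Real.log z := by
        rw [← Real.log_mul two_ne_zero (by linarith)]
        exact Real.log_le_log hx0 (by linarith)
      linarith [Real.log_le_log two_pos (show (2 : ℝ) ≤ z by linarith)]
    have hg : gauge x / 2 ≤ gauge z := by
      refine le_trans ?_ (Real.rpow_le_rpow (by positivity)
        (show Real.log x / 2 ≤ Real.log z by linarith) (by norm_num))
      rw [Real.div_rpow hlogx two_pos.le, gauge]
      exact div_le_div_of_nonneg_left (Real.rpow_nonneg hlogx _) (by positivity)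
        (Real.rpow_le_self_of_one_le one_le_two (by norm_num))
    refine (h q a ha z hz3 (hq.trans (Real.rpow_le_rpow hlogx hlz hA.le))).trans ?_
    have hexp : Real.exp (-(c * gauge z)) ≤ η * η := by
      rw [hη, ← Real.exp_add]
      refine Real.exp_le_exp.2 ?_
      have := mul_le_mul_of_nonneg_left hg hc.le
      linarith
    calc C * z ^ 2 * Real.exp (-(c * gauge z)) ≤ C * (4 * x ^ 2) * (η * η) := by
          refine mul_le_mul (mul_le_mul_of_nonneg_left ?_ hC.le) hexp (Real.exp_pos _).le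
            (by positivity)
          nlinarith
      _ = _ := by ring
  refine (desmooth a hx0.le hd0 (by linarith) hm1 hgap).trans ?_
  have : 2 * (4 * C * x ^ 2 * (η * η)) / (x * η) = 8 * C * (x * η) := by field_simp; ring
  rw [this]
  linarith

end FA.SiegelWalfisz
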