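import Fermat.Agent.ZeroFreeRegion.Inversion

/-!
# The smoothed Perron formula and the shift of the line, for any Dirichlet series

`∑_{n ≤ x} f n (1 - n / x)` is the inverse Mellin integral of `F s / (s (s + 1))`, `F` the
Dirichlet series of `f`. If `F` is holomorphic and at most `B (1 + y²) ^ (1/4)` to the right of
`σ₁` for `|y| ≤ T`, it is `O (B x (x ^ (σ₁ - 1) + T ^ (-1/2)))`.
-/

set_option autoImplicit false

noncomputable section

namespace FA.SiegelWalfisz

open Complex MeasureTheory Filter Topology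
open scoped Real

theorem div_cpow_pos {a b : ℝ} (ha : 0 < a) (hb : 0 < b) {s : ℂ} :
    ((a : ℂ) / (b : ℂ)) ^ s = (a : ℂ) ^ s / (b : ℂ) ^ s :=
  ZeroFree.smoothErr_eq.div_cpow_ofReal_nonneg' ha hb

/-- The integrand of the inversion. -/
def kernelMul (F : ℂ → ℂ) (x : ℝ) (s : ℂ) : ℂ := (x : ℂ) ^ s * F s / (s * (s + 1))

/-- The smoothed sum. -/
def smoothSum (f : ℕ → ℂ) (x : ℝ) : ℂ := ∑ n ∈ Finset.Icc 1 ⌊x⌋₊, f n * (1 - n / x : ℝ)

/-- **The Perron formula.** -/
theorem smoothSum_eq {f : ℕ → ℂ} {F : ℂ → ℂ} {x σ : ℝ} (hx : 0 < x) (hσ : 1 < σ)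
    (hf : LSeriesSummable f (σ : ℂ)) (hF' : ∀ s : ℂ, 1 < s.re → LSeries f s = F s) :
    smoothSum f x = (1 / (2 * π)) • ∫ y : ℝ, kernelMul F x ((σ : ℂ) + y * I) := by
  obtain ⟨G, hG⟩ : ∃ G : ℕ → ℝ → ℂ, G = fun n (y : ℝ) => LSeries.term f ((σ : ℂ) + y * I) n *
      ((x : ℂ) ^ ((σ : ℂ) + y * I) * (1 / (((σ : ℂ) + y * I) * ((σ : ℂ) + y * I + 1)))) :=
    ⟨_, rfl⟩
  have hre : ∀ y : ℝ, 1 < ((σ : ℂ) + y * I).re := fun y => by simpa using hσ
  have hnorm : ∀ n y, ‖G n y‖ ≤ ‖LSeries.term f (σ : ℂ) n‖ * (x ^ σ * (4 * ZeroFree.decay y)) := by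
    intro n y
    rw [hG, norm_mul]
    refine mul_le_mul (le_of_eq ?_) ?_ (norm_nonneg _) (norm_nonneg _)
    · rw [LSeries.norm_term_eq, LSeries.norm_term_eq]
      simp
    · rw [norm_mul, norm_div, norm_one, norm_cpow_eq_rpow_re_of_pos hx]
      simp only [add_re, ofReal_re, mul_re, I_re, mul_zero, ofReal_im, I_im, mul_one, sub_self,
        add_zero]
      refine mul_le_mul_of_nonneg_left ((ZeroFree.norm_kernel_inv_le (by linarith) y).trans ?_)
        (Real.rpow_nonneg hx.le _)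
      rw [div_eq_mul_one_div]
      exact mul_le_mul_of_nonneg_left (ZeroFree.inv_le_decay y) (by norm_num)
  have hmeas : ∀ n, AEStronglyMeasurable (G n) volume := fun n => by
    rw [hG]
    rcases eq_or_ne n 0 with rfl | hn
    · simp
      exact aestronglyMeasurable_const
    · simp only [LSeries.term_of_ne_zero hn]
      exact Measurable.aestronglyMeasurable (by fun_prop)
  have hint : ∀ n, Integrable (G n) := fun n =>
    (((ZeroFree.integrable_decay.const_mul 4).const_mul (x ^ σ)).const_mul _).mono' (hmeas n)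
      (Eventually.of_forall (hnorm n))
  have hsum : Summable fun n => ∫ y, ‖G n y‖ := by
    refine Summable.of_nonneg_of_le (fun n => integral_nonneg fun y => norm_nonneg _) (fun n => ?_)
      ((hf.norm).mul_right
        (x ^ σ * (4 * ∫ y, ZeroFree.decay y)))
    refine (integral_mono (hint n).norm
      (((ZeroFree.integrable_decay.const_mul 4).const_mul (x ^ σ)).const_mul _) (hnorm n)).trans
      (le_of_eq ?_)
    rw [integral_const_mul, integral_const_mul, integral_const_mul]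
  have hterm : ∀ n, (1 / (2 * π)) • ∫ y, G n y =
      if n = 0 then 0 else f n * (ZeroFree.tent (n / x) : ℂ) := by
    intro n
    rw [hG]
    rcases eq_or_ne n 0 with rfl | hn
    · simp
    · have hn0 : (0 : ℝ) < n := Nat.cast_pos.2 (Nat.pos_of_ne_zero hn)
      rw [if_neg hn, ← ZeroFree.tent_inversion (σ := σ) (by linarith) (div_pos hn0 hx),
        mul_smul_comm, ← integral_const_mul]
      congr 2
      funext y
      simp only
      rw [LSeries.term_of_ne_zero hn, smul_eq_mul, Complex.ofReal_div,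
        div_cpow_pos hn0 hx,
        cpow_neg, cpow_neg, Complex.ofReal_natCast]
      field_simp
  have hswap := integral_tsum_of_summable_integral_norm hint hsum
  have hfun : (fun y => ∑' n, G n y) = fun y : ℝ => kernelMul F x ((σ : ℂ) + y * I) := by
    funext y
    rw [hG, tsum_mul_right, kernelMul, ← hF' _ (hre y), LSeries]
    ring
  rw [← hfun, ← hswap, ← tsum_const_smul'', tsum_congr hterm,
    tsum_eq_sum (s := Finset.Icc 1 ⌊x⌋₊) fun n hn => ?_, smoothSum]
  · refine Finset.sum_congr rfl fun n hn => ?_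
    rw [Finset.mem_Icc] at hn
    have : (n : ℝ) ≤ x := (Nat.cast_le.2 hn.2).trans (Nat.floor_le hx.le)
    rw [if_neg (by omega), ZeroFree.tent,
      max_eq_left (by rw [sub_nonneg, div_le_one hx]; exact this)]
  · rw [Finset.mem_Icc] at hn
    rcases eq_or_ne n 0 with rfl | h0
    · simp
    · have : x < n := Nat.lt_of_floor_lt (by omega)
      rw [if_neg h0, ZeroFree.tent,
        max_eq_right (by rw [sub_nonpos, one_le_div hx]; exact this.le)]
      simp

/-- **The shift of the line.** -/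
theorem exists_norm_smoothSum_le : ∃ K : ℝ, 0 < K ∧ ∀ (f : ℕ → ℂ) (F : ℂ → ℂ) (x T σ₁ B : ℝ),
    3 ≤ x → 1 ≤ T → 1 / 2 ≤ σ₁ → σ₁ ≤ 1 → 0 ≤ B →
    (∀ σ : ℝ, 1 < σ → LSeriesSummable f (σ : ℂ)) → (∀ s : ℂ, 1 < s.re → LSeries f s = F s) →
    (∀ σ y : ℝ, ((|y| ≤ T ∧ σ₁ ≤ σ) ∨ 1 < σ) → σ ≤ 2 →
      DifferentiableAt ℂ F ((σ : ℂ) + y * I) ∧
        ‖F ((σ : ℂ) + y * I)‖ ≤ B * (1 + y ^ 2) ^ (1 / 4 : ℝ)) →
    ‖smoothSum f x‖ ≤ K * B * x * (x ^ (σ₁ - 1) + T ^ (-(1 / 2) : ℝ)) := by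
  obtain ⟨J, hJ⟩ : ∃ J, J = ∫ y, ZeroFree.decay y := ⟨_, rfl⟩
  have hJ0 : 0 ≤ J := hJ ▸ integral_nonneg fun y => (ZeroFree.decay_pos y).le
  refine ⟨4 * (J + 3 * 8), by positivity,
    fun g F x T σ₁ B hx hT hσ₁2 h11 hB hsum hF hreg => ?_⟩
  obtain ⟨C, hCB⟩ : ∃ C, C = 4 * B := ⟨_, rfl⟩
  have hC : 0 ≤ C := by rw [hCB]; positivity
  have hx0 : 0 < x := by linarith
  have hlog : 1 ≤ Real.log x := by
    rw [Real.le_log_iff_exp_le hx0]
    linarith [Real.exp_one_lt_three]
  obtain ⟨σ₂, hσ₂⟩ : ∃ σ₂, σ₂ = 1 + 1 / Real.log x := ⟨_, rfl⟩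
  have h12 : 1 < σ₂ := by
    rw [hσ₂]
    have : 0 < 1 / Real.log x := by positivity
    linarith
  have h22 : σ₂ ≤ 2 := by
    rw [hσ₂]
    have : 1 / Real.log x ≤ 1 := (div_le_one (by linarith)).2 hlog
    linarith
  have hxσ₂ : x ^ σ₂ ≤ 3 * x := by
    rw [hσ₂, Real.rpow_add hx0, Real.rpow_one, mul_comm]
    refine mul_le_mul_of_nonneg_right (le_of_eq_of_le ?_ Real.exp_one_lt_three.le) hx0.le
    rw [Real.rpow_def_of_pos hx0, mul_one_div_cancel (by linarith)]
  have hb : ∀ σ y : ℝ, ((|y| ≤ T ∧ σ₁ ≤ σ) ∨ 1 < σ) → σ ≤ 2 →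
      DifferentiableAt ℂ (kernelMul F x) ((σ : ℂ) + y * I) ∧
        ‖kernelMul F x ((σ : ℂ) + y * I)‖ ≤ C * x ^ σ * ZeroFree.decay y := by
    intro σ y h1 h2
    have hσ : 1 / 2 ≤ σ := by rcases h1 with h1 | h1 <;> linarith
    obtain ⟨hd, hn⟩ := hreg σ y h1 h2
    have hs0 : (σ : ℂ) + y * I ≠ 0 := fun h => by
      have := congrArg Complex.re h
      simp at this
      linarith
    have hs1 : (σ : ℂ) + y * I + 1 ≠ 0 := fun h => by
      have := congrArg Complex.re h
      simp at this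
      linarith
    refine ⟨((differentiableAt_id.const_cpow (Or.inl (Complex.ofReal_ne_zero.2 hx0.ne'))).mul
      hd).div (by fun_prop) (mul_ne_zero hs0 hs1), ?_⟩
    rw [kernelMul, norm_div, norm_mul, norm_cpow_eq_rpow_re_of_pos hx0]
    simp only [add_re, ofReal_re, mul_re, I_re, mul_zero, ofReal_im, I_im, mul_one, sub_self,
      add_zero]
    rw [div_eq_mul_one_div]
    have e : (1 + y ^ 2) ^ (1 / 4 : ℝ) * (1 / (1 + y ^ 2)) = ZeroFree.decay y := by
      rw [ZeroFree.decay, one_div (1 + y ^ 2), ← Real.rpow_neg_one,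
        ← Real.rpow_add (by positivity)]
      norm_num
    calc x ^ σ * ‖F ((σ : ℂ) + y * I)‖ * (1 / ‖((σ : ℂ) + y * I) * ((σ : ℂ) + y * I + 1)‖)
        ≤ x ^ σ * (B * (1 + y ^ 2) ^ (1 / 4 : ℝ)) * (4 / (1 + y ^ 2)) := by
          refine mul_le_mul ?_ (ZeroFree.norm_kernel_inv_le hσ y) (by positivity) (by positivity)
          exact mul_le_mul_of_nonneg_left hn (Real.rpow_nonneg hx0.le _)
      _ = C * x ^ σ * ((1 + y ^ 2) ^ (1 / 4 : ℝ) * (1 / (1 + y ^ 2))) := by rw [hCB]; ring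
      _ = _ := by rw [e]
  obtain ⟨f, hf⟩ : ∃ f : ℝ → ℂ, f = fun y : ℝ => kernelMul F x ((σ₂ : ℂ) + y * I) := ⟨_, rfl⟩
  have hfc : Continuous f := by
    refine hf ▸ continuous_iff_continuousAt.2 fun y => ?_
    exact ContinuousAt.comp' (g := kernelMul F x) ((hb σ₂ y (Or.inr h12) h22).1.continuousAt)
      (by fun_prop)
  have hfb : ∀ y, ‖f y‖ ≤ C * (3 * x) * ZeroFree.decay y := fun y => by
    rw [hf]
    refine ((hb σ₂ y (Or.inr h12) h22).2).trans ?_
    gcongr
    exact (ZeroFree.decay_pos y).le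
  have hfi : Integrable f := (ZeroFree.integrable_decay.const_mul (C * (3 * x))).mono'
    hfc.aestronglyMeasurable (Eventually.of_forall hfb)
  have hcompl : (Set.Icc (-T) T)ᶜ ⊆ Set.Iio (-T) ∪ Set.Ioi T := by
    intro y hy
    simp only [Set.mem_compl_iff, Set.mem_Icc, not_and_or, not_le] at hy
    exact hy
  -- the tails
  have hT0 : 0 < T := by linarith
  have hdint : ∫ y in Set.Ioi T, ZeroFree.decay y ≤ 2 * T ^ (-(1 / 2) : ℝ) := by
    refine (setIntegral_mono_on ZeroFree.integrable_decay.integrableOn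
      (integrableOn_Ioi_rpow_of_lt (by norm_num : (-(3 / 2) : ℝ) < -1) hT0) measurableSet_Ioi
      fun y hy => ZeroFree.decay_le (hT0.trans hy)).trans (le_of_eq ?_)
    rw [integral_Ioi_rpow_of_lt (by norm_num) hT0]
    norm_num
    ring
  have hdneg : ∫ y in Set.Iio (-T), ZeroFree.decay y = ∫ y in Set.Ioi T, ZeroFree.decay y := by
    rw [← integral_Iic_eq_integral_Iio, ← integral_comp_neg_Ioi]
    simp [ZeroFree.decay]
  have htail : ‖(∫ y, f y) - ∫ y in (-T)..T, f y‖ ≤ C * (3 * x) * (4 * T ^ (-(1 / 2) : ℝ)) := by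
    rw [intervalIntegral.integral_of_le (by linarith), ← integral_Icc_eq_integral_Ioc,
      ← integral_add_compl (s := Set.Icc (-T) T) measurableSet_Icc hfi, add_sub_cancel_left]
    refine (norm_integral_le_of_norm_le (ZeroFree.integrable_decay.const_mul _).integrableOn
      (Eventually.of_forall hfb)).trans ?_
    rw [integral_const_mul]
    refine mul_le_mul_of_nonneg_left ?_ (by positivity)
    refine (setIntegral_mono_set ZeroFree.integrable_decay.integrableOn
      (Eventually.of_forall fun y => (ZeroFree.decay_pos y).le) hcompl.eventuallyLE).trans ?_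
    rw [setIntegral_union (Set.disjoint_left.2 fun y h1 h2 => by
        simp only [Set.mem_Iio] at h1
        simp only [Set.mem_Ioi] at h2
        linarith) measurableSet_Ioi ZeroFree.integrable_decay.integrableOn
          ZeroFree.integrable_decay.integrableOn,
      hdneg]
    linarith
  -- the rectangle
  have hrect := Complex.integral_boundary_rect_eq_zero_of_differentiableOn (kernelMul F x)
    ((σ₁ : ℂ) + ((-T : ℝ) : ℂ) * I) ((σ₂ : ℂ) + (T : ℂ) * I) (fun s hs => by
      rw [Complex.mem_reProdIm] at hs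
      simp only [add_re, ofReal_re, mul_re, I_re, mul_zero, ofReal_im, I_im, mul_one, sub_self,
        add_zero, add_im, mul_im, zero_add, Set.uIcc_of_le (h11.trans h12.le),
        Set.uIcc_of_le (show -T ≤ T by linarith)] at hs
      have := (hb s.re s.im (Or.inl ⟨abs_le.2 hs.2, hs.1.1⟩) (hs.1.2.trans h22)).1
      rw [Complex.re_add_im] at this
      exact this.differentiableWithinAt)
  simp only [add_re, ofReal_re, mul_re, I_re, mul_zero, ofReal_im, I_im, mul_one, sub_self,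
    add_zero, add_im, mul_im, zero_add] at hrect
  obtain ⟨P, hP⟩ : ∃ P : ℝ → ℂ, P = fun v : ℝ =>
      ∫ u in σ₁..σ₂, kernelMul F x ((u : ℂ) + (v : ℂ) * I) := ⟨_, rfl⟩
  obtain ⟨Q, hQ⟩ : ∃ Q : ℂ, Q = ∫ y in (-T)..T, kernelMul F x ((σ₁ : ℂ) + y * I) := ⟨_, rfl⟩
  have hcentral : ‖Q‖ ≤ C * x ^ σ₁ * J := by
    rw [hQ]
    refine (intervalIntegral.norm_integral_le_of_norm_le (by linarith)
      (Eventually.of_forall fun y hy => (hb σ₁ y (Or.inl ⟨?_, le_rfl⟩)
        (by linarith)).2) (ZeroFree.integrable_decay.const_mul _).intervalIntegrable).trans ?_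
    · exact abs_le.2 ⟨hy.1.le, hy.2⟩
    · rw [intervalIntegral.integral_const_mul, intervalIntegral.integral_of_le (by linarith), hJ]
      refine mul_le_mul_of_nonneg_left (setIntegral_le_integral ZeroFree.integrable_decay
        (Eventually.of_forall fun y => (ZeroFree.decay_pos y).le)) (by positivity)
  have hhor : ∀ v : ℝ, |v| = T → ‖P v‖ ≤ C * (3 * x) * T ^ (-(1 / 2) : ℝ) * 2 := by
    intro v hv
    rw [hP]
    refine (intervalIntegral.norm_integral_le_of_norm_le_const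
      (C := C * (3 * x) * ZeroFree.decay T) fun u hu => ?_).trans ?_
    · rw [Set.uIoc_of_le (h11.trans h12.le)] at hu
      refine (hb u v (Or.inl ⟨hv.le, hu.1.le⟩) (hu.2.trans h22)).2.trans (le_of_eq_of_le
        (?_ : _ = C * x ^ u * ZeroFree.decay T) ?_)
      · rw [show ZeroFree.decay v = ZeroFree.decay T by unfold ZeroFree.decay; rw [← sq_abs v, hv]]
      · gcongr
        · exact (ZeroFree.decay_pos T).le
        · exact (Real.rpow_le_rpow_of_exponent_le (by linarith) hu.2).trans hxσ₂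
    · have hσ12 : |σ₂ - σ₁| ≤ 2 := abs_le.2 ⟨by linarith, by linarith⟩
      refine mul_le_mul (mul_le_mul_of_nonneg_left ((ZeroFree.decay_le hT0).trans
        (Real.rpow_le_rpow_of_exponent_le hT (by norm_num))) (by positivity)) hσ12 (abs_nonneg _)
        (by positivity)
  have hmid : ‖∫ y in (-T)..T, f y‖ ≤
      C * x ^ σ₁ * J + C * (3 * x) * T ^ (-(1 / 2) : ℝ) * 4 := by
    have e : I * (∫ y in (-T)..T, f y) = I * Q + P T - P (-T) := by
      rw [hf, hQ, hP]
      simp only [smul_eq_mul] at hrect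
      linear_combination hrect
    have := congrArg (fun z : ℂ => ‖z‖) e
    simp only [norm_mul, Complex.norm_I, one_mul] at this
    rw [this]
    refine (norm_sub_le _ _).trans ((add_le_add (norm_add_le _ _) le_rfl).trans ?_)
    rw [norm_mul, Complex.norm_I, one_mul]
    linarith [hhor T (abs_of_pos hT0), hhor (-T) (by rw [abs_neg, abs_of_pos hT0]), hcentral]
  have htotal : ‖∫ y, f y‖ ≤ C * x ^ σ₁ * J + C * (3 * x) * T ^ (-(1 / 2) : ℝ) * 8 := by
    have := norm_le_norm_add_norm_sub' (∫ y, f y) (∫ y in (-T)..T, f y)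
    linarith
  have hs := smoothSum_eq (f := g) hx0 h12 (hsum σ₂ h12) hF
  rw [hs, norm_smul, Real.norm_eq_abs, abs_of_pos (by positivity)]
  have hpi : 1 / (2 * π) ≤ 1 := by
    rw [div_le_one (by positivity)]
    linarith [Real.two_le_pi]
  refine (mul_le_of_le_one_left (norm_nonneg _) hpi).trans ?_
  rw [hf] at htotal
  refine htotal.trans ?_
  rw [show σ₁ = 1 + (σ₁ - 1) by ring, Real.rpow_add hx0, Real.rpow_one,
    show 1 + (σ₁ - 1) - 1 = σ₁ - 1 by ring, hCB]
  have p1 : 0 ≤ B * x * T ^ (-(1 / 2) : ℝ) * J := by positivity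
  have p2 : 0 ≤ B * x * x ^ (σ₁ - 1) * 24 := by positivity
  nlinarith

end FA.SiegelWalfisz
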