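import Fermat.Agent.SiegelWalfisz.Region
import Fermat.Agent.SiegelWalfisz.Perron

/-!
# The twisted smoothed sums

For `q ≤ (2 log x) ^ A` and `χ ≠ 1`: `∑_{n ≤ x} χ n Λ n (1 - n / x) = O (x exp (-c u))` with
`u = (log x) ^ (1/15)`.
-/

set_option autoImplicit false

noncomputable section

namespace FA.SiegelWalfisz

open Complex DirichletCharacter
open scoped ArithmeticFunction.vonMangoldt

/-- `(log x) ^ (1/15)`. -/
def gauge (x : ℝ) : ℝ := Real.log x ^ (1 / 15 : ℝ)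

theorem gauge_mono {x y : ℝ} (hx : 1 ≤ x) (hxy : x ≤ y) : gauge x ≤ gauge y :=
  Real.rpow_le_rpow (Real.log_nonneg hx) (Real.log_le_log (by linarith) hxy) (by norm_num)

theorem one_le_log {x : ℝ} (hx : 3 ≤ x) : 1 ≤ Real.log x := by
  rw [Real.le_log_iff_exp_le (by linarith)]
  linarith [Real.exp_one_lt_three]

theorem gauge_facts {x : ℝ} (hx : 3 ≤ x) :
    1 ≤ gauge x ∧ gauge x ≤ Real.log x ∧ gauge x ^ 15 = Real.log x := by
  have h := one_le_log hx
  refine ⟨Real.one_le_rpow h (by norm_num), (Real.rpow_le_rpow_of_exponent_le h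
    (by norm_num : (1 / 15 : ℝ) ≤ 1)).trans (le_of_eq (Real.rpow_one _)), ?_⟩
  rw [gauge, ← Real.rpow_natCast, ← Real.rpow_mul (by linarith)]
  norm_num

/-- Powers are absorbed by the exponential. -/
theorem exists_rpow_mul_exp_le (m : ℝ) {c : ℝ} (hc : 0 < c) :
    ∃ K, 0 < K ∧ ∀ u : ℝ, 1 ≤ u → u ^ m * Real.exp (-(c * u)) ≤ K := by
  obtain ⟨n, hn⟩ := exists_nat_ge m
  refine ⟨(n.factorial : ℝ) / c ^ n, by positivity, fun u hu => ?_⟩
  have h1 : u ^ m ≤ u ^ n := by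
    rw [← Real.rpow_natCast]
    exact Real.rpow_le_rpow_of_exponent_le hu hn
  refine (mul_le_mul_of_nonneg_right h1 (Real.exp_pos _).le).trans ?_
  have h2 := Real.pow_div_factorial_le_exp (c * u) (by positivity) n
  rw [div_le_iff₀ (by positivity), mul_pow] at h2
  rw [Real.exp_neg, ← div_eq_mul_inv, div_le_div_iff₀ (Real.exp_pos _) (by positivity)]
  linarith

/-- Half of the exponential absorbs a power. -/
theorem exists_rpow_absorb (m : ℝ) {c : ℝ} (hc : 0 < c) : ∃ K, 0 < K ∧ ∀ u : ℝ, 1 ≤ u →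
    u ^ m * Real.exp (-(c * u)) ≤ K * Real.exp (-(c / 2 * u)) := by
  obtain ⟨K, hK, h⟩ := exists_rpow_mul_exp_le m (half_pos hc)
  refine ⟨K, hK, fun u hu => le_trans (le_of_eq ?_)
    (mul_le_mul_of_nonneg_right (h u hu) (Real.exp_pos _).le)⟩
  rw [mul_assoc, ← Real.exp_add]
  ring_nf

theorem ell_twelve_le : ∃ K, 1 ≤ K ∧ ∀ y : ℝ,
    ZeroFree.ell y ^ 12 ≤ K * (1 + y ^ 2) ^ (1 / 4 : ℝ) := by
  refine ⟨(24 : ℝ) ^ 12 * 101 * 2, by norm_num, fun y => ?_⟩
  obtain ⟨w, hw⟩ : ∃ w, w = |y| + 100 := ⟨_, rfl⟩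
  have hw0 : 0 < w := by rw [hw]; positivity
  have h1 : ZeroFree.ell y ≤ w ^ (1 / 24 : ℝ) / (1 / 24) :=
    hw ▸ Real.log_le_rpow_div (by positivity) (by norm_num)
  have h2 := pow_le_pow_left₀ (ZeroFree.ell_pos y).le h1 12
  have e : (w ^ (1 / 24 : ℝ)) ^ 12 = w ^ (1 / 2 : ℝ) := by
    rw [← Real.rpow_natCast, ← Real.rpow_mul hw0.le]
    norm_num
  rw [div_pow, e] at h2
  have h3 : w ≤ 101 * (2 * (1 + y ^ 2) ^ (1 / 2 : ℝ)) := by
    rw [← Real.sqrt_eq_rpow, hw]
    have h4 : |y| ≤ √(1 + y ^ 2) := Real.abs_le_sqrt (by linarith)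
    have h5 : 1 ≤ √(1 + y ^ 2) := Real.one_le_sqrt.2 (by nlinarith [sq_nonneg y])
    linarith
  have h6 : w ^ (1 / 2 : ℝ) ≤ 101 * (2 * (1 + y ^ 2) ^ (1 / 4 : ℝ)) := by
    refine (Real.rpow_le_rpow hw0.le h3 (by norm_num)).trans ?_
    rw [Real.mul_rpow (by norm_num) (by positivity), Real.mul_rpow (by norm_num) (by positivity),
      ← Real.rpow_mul (by positivity), show (1 / 2 : ℝ) * (1 / 2) = 1 / 4 by norm_num]
    gcongr
    · exact Real.rpow_le_self_of_one_le (by norm_num) (by norm_num)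
    · exact Real.rpow_le_self_of_one_le one_le_two (by norm_num)
  refine h2.trans ?_
  rw [div_le_iff₀ (by positivity)]
  refine h6.trans (le_of_eq ?_)
  ring

theorem twist_eq {q : ℕ} [NeZero q] (χ : DirichletCharacter ℂ q) {s : ℂ} (hs : 1 < s.re) :
    LSeries (fun n => χ n * (Λ n : ℂ)) s = -deriv (LFunction χ) s / LFunction χ s := by
  rw [deriv_LFunction_eq_deriv_LSeries χ hs, LFunction_eq_LSeries χ hs,
    ← LSeries_twist_vonMangoldt_eq χ hs]
  rfl

theorem rpow_gauge_le {A : ℝ} (hA : 0 < A) {q : ℕ} {x : ℝ} (hx : 3 ≤ x)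
    (hq : (q : ℝ) ≤ (2 * Real.log x) ^ A) : (q : ℝ) ^ (1 / (15 * A)) ≤ 2 * gauge x := by
  have h := one_le_log hx
  refine (Real.rpow_le_rpow (Nat.cast_nonneg q) hq (by positivity)).trans ?_
  rw [← Real.rpow_mul (by positivity), show A * (1 / (15 * A)) = 1 / 15 by field_simp,
    Real.mul_rpow two_pos.le (by linarith)]
  exact mul_le_mul_of_nonneg_right (Real.rpow_le_self_of_one_le one_le_two (by norm_num))
    (Real.rpow_nonneg (by linarith) _)

/-- **The twisted sum.** -/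
theorem exists_twisted_le (A : ℝ) (hA : 0 < A) : ∃ c C, 0 < c ∧ 0 < C ∧
    ∀ (q : ℕ) [NeZero q] (χ : DirichletCharacter ℂ q), χ ≠ 1 → ∀ x : ℝ, 3 ≤ x →
    (q : ℝ) ≤ (2 * Real.log x) ^ A →
      ‖smoothSum (fun n => χ n * (Λ n : ℂ)) x‖ ≤ C * x * Real.exp (-(c * gauge x)) := by
  obtain ⟨ε, hε⟩ : ∃ ε, ε = 1 / (15 * A) := ⟨_, rfl⟩
  have hε0 : 0 < ε := by rw [hε]; positivity
  obtain ⟨a, B, ha, ha1, hB, hreg⟩ := exists_region ε hε0
  obtain ⟨K₁, hK₁1, hK₁⟩ := ell_twelve_le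
  obtain ⟨K₂, hK₂, hsmooth⟩ := exists_norm_smoothSum_le
  obtain ⟨M, hM⟩ : ∃ M, M = 30 * A + 6 := ⟨_, rfl⟩
  have hM0 : 0 < M := by rw [hM]; positivity
  obtain ⟨c, hc⟩ : ∃ c, c = min (a / (2 * M ^ 12)) (1 / 2) := ⟨_, rfl⟩
  have hc0 : 0 < c := hc ▸ lt_min (by positivity) (by norm_num)
  obtain ⟨K₃, hK₃, habs⟩ := exists_rpow_absorb (13 : ℕ) hc0
  refine ⟨c / 2, K₂ * (2 * B * M ^ 12 * K₁) * 2 * K₃, half_pos hc0, by positivity,
    fun q _ χ hχ x hx hq => ?_⟩
  obtain ⟨hu1, hul, hu15⟩ := gauge_facts hx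
  obtain ⟨u, hu⟩ : ∃ u, u = gauge x := ⟨_, rfl⟩
  rw [← hu] at hu1 hul hu15 ⊢
  have hq1 : (1 : ℝ) ≤ q := by exact_mod_cast NeZero.one_le
  have hqu : (q : ℝ) ^ ε ≤ 2 * u := hε ▸ hu ▸ rpow_gauge_le hA hx hq
  have hlogq : Real.log q ≤ 30 * A * u := by
    refine (Real.log_le_rpow_div (Nat.cast_nonneg q) hε0).trans ?_
    rw [div_le_iff₀ hε0]
    refine hqu.trans (le_of_eq ?_)
    rw [hε]
    field_simp
    norm_num
  have hgrow : ∀ y, lg q y ^ 12 ≤ M ^ 12 * u ^ 12 * (K₁ * (1 + y ^ 2) ^ (1 / 4 : ℝ)) := by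
    intro y
    refine le_trans ?_ (mul_le_mul_of_nonneg_left (hK₁ y) (by positivity))
    rw [← mul_pow, ← mul_pow]
    refine pow_le_pow_left₀ (lg_pos q y).le ?_ 12
    have hl := ZeroFree.four_le_ell y
    have h1 : 30 * A * u * 1 ≤ 30 * A * u * ZeroFree.ell y :=
      mul_le_mul_of_nonneg_left (by linarith) (by positivity)
    have h2 : 1 * ZeroFree.ell y ≤ 6 * u * ZeroFree.ell y :=
      mul_le_mul_of_nonneg_right (by linarith) (by linarith)
    rw [hM, lg]
    linarith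
  obtain ⟨T, hT⟩ : ∃ T, T = Real.exp u := ⟨_, rfl⟩
  have hT1 : 1 ≤ T := hT ▸ Real.one_le_exp (by linarith)
  have hLT : lg q T ≤ M * u := by
    have hell : ZeroFree.ell T ≤ 6 * u := by
      rw [hT]
      unfold ZeroFree.ell
      rw [Real.log_le_iff_le_exp (by positivity), abs_of_pos (Real.exp_pos u),
        show 6 * u = u + 5 * u by ring, Real.exp_add]
      have h5 : (101 : ℝ) ≤ Real.exp (5 * u) :=
        calc (101 : ℝ) ≤ (2.7 : ℝ) ^ 5 := by norm_num
          _ ≤ Real.exp 1 ^ 5 :=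
            pow_le_pow_left₀ (by norm_num) (by linarith [Real.exp_one_gt_d9]) 5
          _ = Real.exp ((5 : ℕ) * 1) := (Real.exp_nat_mul 1 5).symm
          _ ≤ _ := Real.exp_le_exp.2 (by norm_num; linarith)
      nlinarith [Real.one_le_exp (show 0 ≤ u by linarith)]
    rw [hM, lg]
    linarith
  obtain ⟨w, hw⟩ : ∃ w, w = a * (q : ℝ) ^ (-ε) / lg q T ^ 12 := ⟨_, rfl⟩
  have hqn : (q : ℝ) ^ (-ε) ≤ 1 := Real.rpow_le_one_of_one_le_of_nonpos hq1 (by linarith)
  have hqn0 : 0 < (q : ℝ) ^ (-ε) := Real.rpow_pos_of_pos (by linarith) _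
  have hLT0 := lg_pos q T
  have hw0 : 0 < w := by rw [hw]; positivity
  have hw2 : w ≤ 1 / 2 := by
    rw [hw, div_le_iff₀ (by positivity)]
    refine (mul_le_one₀ ha1 hqn0.le hqn).trans ?_
    have h := (four_le_lg q T).trans (le_self_pow₀ (by linarith [four_le_lg q T])
      (show (12 : ℕ) ≠ 0 by norm_num))
    linarith
  have hS := hsmooth (fun n => χ n * (Λ n : ℂ)) (fun s => -deriv (LFunction χ) s / LFunction χ s)
    x T (1 - w) (2 * B * M ^ 12 * K₁ * u ^ 13) hx hT1 (by linarith) (by linarith) (by positivity)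
    (fun σ hσ => LSeriesSummable_twist_vonMangoldt χ (by simpa using hσ))
    (fun s hs => twist_eq χ hs) ?_
  · have e1 : x ^ ((1 - w) - 1) ≤ Real.exp (-(c * u)) := by
      rw [show (1 - w) - 1 = -w by ring, Real.rpow_def_of_pos (by linarith)]
      refine Real.exp_le_exp.2 ?_
      have h1 : a / (2 * M ^ 12 * u ^ 13) ≤ w := by
        rw [hw, Real.rpow_neg (by linarith)]
        calc a / (2 * M ^ 12 * u ^ 13) = a * (2 * u)⁻¹ / (M * u) ^ 12 := by field_simp
          _ ≤ _ := by gcongr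
      have h2 : c * u ≤ Real.log x * w := by
        refine le_trans ?_ (mul_le_mul_of_nonneg_left h1 (by linarith))
        calc c * u ≤ a / (2 * M ^ 12) * u ^ 2 := by
              refine mul_le_mul (hc ▸ min_le_left _ _) (le_self_pow₀ hu1 two_ne_zero) (by linarith)
                (by positivity)
          _ = _ := by
              rw [← hu15]
              field_simp
      linarith
    have e2 : T ^ (-(1 / 2) : ℝ) ≤ Real.exp (-(c * u)) := by
      rw [hT, ← Real.exp_mul]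
      refine Real.exp_le_exp.2 ?_
      have := mul_le_mul_of_nonneg_right (hc ▸ min_le_right (a / (2 * M ^ 12)) (1 / 2) : c ≤ 1 / 2)
        (show 0 ≤ u by linarith)
      linarith
    refine hS.trans ((mul_le_mul_of_nonneg_left (add_le_add e1 e2) (by positivity)).trans ?_)
    have h13 := habs u hu1
    rw [Real.rpow_natCast] at h13
    calc K₂ * (2 * B * M ^ 12 * K₁ * u ^ 13) * x * (Real.exp (-(c * u)) + Real.exp (-(c * u)))
        = K₂ * (2 * B * M ^ 12 * K₁) * x * 2 * (u ^ 13 * Real.exp (-(c * u))) := by ring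
      _ ≤ K₂ * (2 * B * M ^ 12 * K₁) * x * 2 * (K₃ * Real.exp (-(c / 2 * u))) :=
          mul_le_mul_of_nonneg_left h13 (by positivity)
      _ = _ := by ring
  · intro σ y h1 h2
    have h3 : 1 - a * (q : ℝ) ^ (-ε) / lg q y ^ 12 ≤ σ := by
      have h0 : 0 < a * (q : ℝ) ^ (-ε) / lg q y ^ 12 := by
        have := lg_pos q y
        positivity
      rcases h1 with h1 | h1
      · have : w ≤ a * (q : ℝ) ^ (-ε) / lg q y ^ 12 := hw ▸ div_le_div_of_nonneg_left
          (by positivity) (pow_pos (lg_pos q y) 12) (pow_le_pow_left₀ (lg_pos q y).le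
            (lg_mono (by rw [abs_of_pos (by linarith : (0 : ℝ) < T)]; exact h1.1)) 12)
        linarith [h1.2]
      · linarith
    obtain ⟨hne, hb⟩ := hreg q χ hχ ((σ : ℂ) + y * I) (by simpa using h3) (by simpa using h2)
    refine ⟨?_, ?_⟩
    · exact ((((differentiable_LFunction hχ).differentiableOn.analyticOnNhd
        isOpen_univ).deriv _ (Set.mem_univ _)).differentiableAt.neg).div
          ((differentiable_LFunction hχ) _) hne
    · rw [neg_div, norm_neg]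
      refine hb.trans ?_
      simp only [add_im, ofReal_im, mul_im, ofReal_re, I_im, I_re, mul_zero, mul_one, zero_add,
        add_zero]
      refine (mul_le_mul (mul_le_mul_of_nonneg_left hqu hB.le) (hgrow y)
        (pow_nonneg (lg_pos q y).le 12) (by positivity)).trans (le_of_eq ?_)
      ring

end FA.SiegelWalfisz
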