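import Fermat.Agent.SiegelWalfisz.Bounds
import Fermat.Agent.Tau.SiegelTheorem
import Mathlib.Analysis.Calculus.MeanValue

/-!
# The zero-free region of the Dirichlet L-functions

For every `ε > 0` there are `a`, `A` with `L(σ + it, χ) ≠ 0` and
`|L'/L (σ + it, χ)| ≤ A q^ε lg q t ^ 12` for all `χ ≠ 1` and
`1 - a q^(-ε) / lg q t ^ 12 ≤ σ ≤ 2`. Near a real zero of a real character this is Siegel's
theorem, so `a` and `A` are ineffective; elsewhere it is the `3-4-1` inequality.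
-/

set_option autoImplicit false

noncomputable section

namespace FA.SiegelWalfisz

open Complex DirichletCharacter

variable {q : ℕ} [NeZero q]

theorem norm_product_ge_one (χ : DirichletCharacter ℂ q) {δ : ℝ} (hδ : 0 < δ) (t : ℝ) :
    1 ≤ ‖LFunctionTrivChar q (1 + δ)‖ ^ 3 * ‖LFunction χ (1 + δ + I * t)‖ ^ 4 *
      ‖LFunction (χ ^ 2) (1 + δ + 2 * I * t)‖ := by
  have h := χ.norm_LFunction_product_ge_one hδ t
  rw [norm_mul, norm_mul, norm_pow, norm_pow] at h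
  exact h

theorem norm_sub_le_segment {χ : DirichletCharacter ℂ q} (hχ : χ ≠ 1) {L B σ₁ σ₂ t : ℝ}
    (hB : B = 5 * upperBoundConst * L ^ 2) (hL : L = lg q t) (h12 : σ₁ ≤ σ₂)
    (h1 : 1 - 1 / L ≤ σ₁) (h2 : σ₂ ≤ 2) :
    ‖LFunction χ (σ₂ + t * I) - LFunction χ (σ₁ + t * I)‖ ≤ B * (σ₂ - σ₁) := by
  have hd : ∀ u ∈ Set.Icc σ₁ σ₂, HasDerivWithinAt (fun u : ℝ => LFunction χ (u + t * I))
      (deriv (LFunction χ) (u + t * I)) (Set.Icc σ₁ σ₂) u := by
    intro u _
    have h3 := ((differentiable_LFunction hχ) ((u : ℂ) + t * I)).hasDerivAt.comp (u : ℂ)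
      ((hasDerivAt_id (u : ℂ)).add_const (t * I))
    rw [mul_one] at h3
    exact h3.comp_ofReal.hasDerivWithinAt
  have hb : ∀ u ∈ Set.Icc σ₁ σ₂, ‖deriv (LFunction χ) (u + t * I)‖ ≤ B := by
    intro u hu
    have h := norm_deriv_LFunction_le hχ (s := u + t * I) ?_ ?_
    · simpa [hB, hL] using h
    · simp [← hL]
      simp at h1
      linarith [hu.1]
    · simp
      linarith [hu.2]
  have := (convex_Icc σ₁ σ₂).norm_image_sub_le_of_norm_hasDerivWithin_le hd hb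
    (Set.left_mem_Icc.2 h12) (Set.right_mem_Icc.2 h12)
  rwa [Real.norm_eq_abs, abs_of_nonneg (by linarith)] at this

/-- The numerator constant of the width. -/
def derivBoundConst : ℝ := 5 * upperBoundConst

theorem one_le_derivBoundConst : 1 ≤ derivBoundConst := by
  unfold derivBoundConst
  linarith [one_le_upperBoundConst]

/-- The second factor of the `3-4-1` product. -/
theorem exists_norm_square_le : ∃ K, 1 ≤ K ∧ ∀ (q : ℕ) [NeZero q] (χ : DirichletCharacter ℂ q)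
    (δ t τ : ℝ), 0 < δ → δ ≤ 1 → 0 < τ → τ ≤ 1 → (χ ^ 2 = 1 → τ ≤ |t|) →
    ‖LFunction (χ ^ 2) (1 + δ + 2 * I * t)‖ ≤ K * lg q t ^ 2 / τ := by
  obtain ⟨K, hK1, hK⟩ := exists_norm_trivChar_le
  refine ⟨4 * K + upperBoundConst, by linarith [one_le_upperBoundConst],
    fun q _ χ δ t τ hδ hδ1 hτ hτ1 ht => ?_⟩
  obtain ⟨L, hL⟩ : ∃ L, L = lg q t := ⟨_, rfl⟩
  rw [← hL]
  have hL4 : 4 ≤ L := hL ▸ four_le_lg q t
  obtain ⟨w, hw⟩ : ∃ w : ℂ, w = 1 + δ + 2 * I * t := ⟨_, rfl⟩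
  have hre : w.re = 1 + δ := by simp [hw]
  have him : w.im = 2 * t := by simp [hw]
  rw [← hw]
  have hLw : lg q w.im ≤ 2 * L := him ▸ hL ▸ lg_two_mul q t
  have hLw0 := lg_pos q w.im
  have hU := one_le_upperBoundConst
  rw [le_div_iff₀ hτ]
  by_cases h : χ ^ 2 = 1
  · rw [h]
    have h1 := hK q w τ (by linarith) (by linarith) hτ hτ1 (by
      rw [him, abs_mul, abs_two]
      linarith [ht h, abs_nonneg t])
    rw [le_div_iff₀ hτ] at h1
    refine h1.trans ?_
    nlinarith [pow_le_pow_left₀ hLw0.le hLw 2]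
  · have hpos : 0 < 2 / lg q w.im := div_pos two_pos hLw0
    have h1 := norm_LFunction_le h (s := w) (by linarith) (by linarith)
    refine (mul_le_of_le_one_right (norm_nonneg _) hτ1).trans (h1.trans ?_)
    calc upperBoundConst * lg q w.im ≤ upperBoundConst * (2 * L) := by gcongr
      _ ≤ (4 * K + upperBoundConst) * L ^ 2 := by
        nlinarith [mul_nonneg (mul_nonneg (show (0 : ℝ) ≤ upperBoundConst by linarith)
          (show (0 : ℝ) ≤ L by linarith)) (show (0 : ℝ) ≤ L - 2 by linarith),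
          show (0 : ℝ) ≤ K * L ^ 2 by positivity]

/-- **The lower bound off the real zero.** -/
theorem exists_lower_bound : ∃ b, 0 < b ∧ b ≤ 1 ∧ ∀ (q : ℕ) [NeZero q]
    (χ : DirichletCharacter ℂ q), χ ≠ 1 → ∀ σ t τ η : ℝ, 0 < τ → τ ≤ 1 →
    (χ ^ 2 = 1 → τ ≤ |t|) → 0 < η → η ≤ b * τ / lg q t ^ 10 → 1 - η ≤ σ → σ ≤ 2 →
    2 * η * derivBoundConst * lg q t ^ 2 ≤ ‖LFunction χ (σ + t * I)‖ := by
  obtain ⟨K, hK1, hK⟩ := exists_norm_square_le
  obtain ⟨D, hD⟩ : ∃ D, D = derivBoundConst := ⟨_, rfl⟩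
  have hD1 : 1 ≤ D := hD ▸ one_le_derivBoundConst
  refine ⟨1 / (64 * K * (4 * D) ^ 4), by positivity, ?_, fun q _ χ hχ σ t τ η hτ hτ1 ht hη hη1
    hσ hσ2 => ?_⟩
  · rw [div_le_one (by positivity)]
    nlinarith [one_le_pow₀ (show 1 ≤ 4 * D by linarith) (n := 4)]
  obtain ⟨L, hL⟩ : ∃ L, L = lg q t := ⟨_, rfl⟩
  rw [← hL, ← hD]
  rw [← hL] at hη1
  have hL4 : 4 ≤ L := hL ▸ four_le_lg q t
  have hηL : η ≤ 1 / L := by
    refine hη1.trans ((div_le_div_of_nonneg_right (mul_le_one₀ ?_ hτ.le hτ1) (by positivity)).trans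
      (one_div_le_one_div_of_le (by linarith) (le_self_pow₀ (by linarith) (by norm_num))))
    rw [div_le_one (by positivity)]
    nlinarith [one_le_pow₀ (show 1 ≤ 4 * D by linarith) (n := 4)]
  have hL14 : 1 / L ≤ 1 / 4 := one_div_le_one_div_of_le (by norm_num) hL4
  -- to the right of `1 + η`
  have hright : ∀ u, 1 + η ≤ u → u ≤ 2 → 4 * η * D * L ^ 2 ≤ ‖LFunction χ (u + t * I)‖ := by
    intro u hu hu2
    obtain ⟨δ, hδ⟩ : ∃ δ, δ = u - 1 := ⟨_, rfl⟩
    have hδ0 : 0 < δ := by linarith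
    have h341 := norm_product_ge_one χ hδ0 t
    have e1 : (1 + δ + I * t : ℂ) = u + t * I := by rw [hδ]; push_cast; ring
    rw [e1] at h341
    obtain ⟨Z, hZ⟩ : ∃ Z, Z = ‖LFunction χ (u + t * I)‖ := ⟨_, rfl⟩
    rw [← hZ] at h341 ⊢
    have hZ0 : 0 ≤ Z := hZ ▸ norm_nonneg _
    have h0 : ‖LFunctionTrivChar q (1 + δ)‖ ≤ 4 / δ := by
      have := norm_LFunction_le_div (1 : DirichletCharacter ℂ q) (w := 1 + δ) (by simp; linarith)
        (by simp; linarith)
      simpa using this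
    have h2 : ‖LFunction (χ ^ 2) (1 + δ + 2 * I * t)‖ ≤ K * L ^ 2 / τ :=
      hL ▸ hK q χ δ t τ hδ0 (by linarith) hτ hτ1 ht
    have hd3 : (1 : ℝ) ≤ (4 / δ) ^ 3 * Z ^ 4 * (K * L ^ 2 / τ) :=
      h341.trans (mul_le_mul (mul_le_mul_of_nonneg_right
        (pow_le_pow_left₀ (norm_nonneg _) h0 3) (by positivity)) h2 (norm_nonneg _)
          (by positivity))
    have h4 : δ ^ 3 * τ ≤ 64 * K * L ^ 2 * Z ^ 4 := by
      have h5 := mul_le_mul_of_nonneg_left hd3 (mul_nonneg (pow_nonneg hδ0.le 3) hτ.le)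
      rw [mul_one] at h5
      refine h5.trans (le_of_eq ?_)
      field_simp
      ring
    refine le_of_pow_le_pow_left₀ four_ne_zero hZ0 ?_
    refine le_of_mul_le_mul_left (le_trans ?_ h4) (by positivity : 0 < 64 * K * L ^ 2)
    refine le_trans ?_ (mul_le_mul_of_nonneg_right
      (pow_le_pow_left₀ hη.le (show η ≤ δ by linarith) 3) hτ.le)
    calc 64 * K * L ^ 2 * (4 * η * D * L ^ 2) ^ 4
        = η ^ 3 * (η * (64 * K * (4 * D) ^ 4) * L ^ 10) := by ring
      _ ≤ _ := by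
          refine mul_le_mul_of_nonneg_left ?_ (by positivity)
          rw [le_div_iff₀ (by positivity), div_mul_eq_mul_div, one_mul,
            le_div_iff₀ (by positivity)] at hη1
          linarith
  rcases le_total (1 + η) σ with h | h
  · refine le_trans ?_ (hright σ h hσ2)
    gcongr
    norm_num
  · have h1 := norm_sub_le_segment hχ (B := D * L ^ 2) (σ₁ := σ) (σ₂ := 1 + η) (t := t) (L := L)
      (by rw [hD, derivBoundConst]) hL h (by linarith) (by linarith)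
    have h2 := hright (1 + η) le_rfl (by linarith)
    have h3 := norm_sub_norm_le (LFunction χ ((1 + η : ℝ) + t * I)) (LFunction χ (σ + t * I))
    have h4 : D * L ^ 2 * (1 + η - σ) ≤ D * L ^ 2 * (2 * η) := by
      gcongr
      linarith
    linarith

/-- **The lower bound near `1` for a real character**, from Siegel's theorem. -/
theorem exists_lower_bound_real (ε : ℝ) (hε : 0 < ε) : ∃ c C, 0 < c ∧ c ≤ 1 ∧ 0 < C ∧
    ∀ (q : ℕ) [NeZero q] (χ : DirichletCharacter ℂ q), χ ≠ 1 → χ ^ 2 = 1 →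
    ∀ σ t τ : ℝ, τ = c * (q : ℝ) ^ (-ε) / lg q t ^ 2 → |t| ≤ τ → 1 - τ ≤ σ → σ ≤ 2 →
      C * τ ≤ ‖LFunction χ (σ + t * I)‖ := by
  obtain ⟨C₀, hC₀, hS⟩ := Siegel.siegel ε hε
  obtain ⟨D, hD⟩ : ∃ D, D = derivBoundConst := ⟨_, rfl⟩
  have hD1 : 1 ≤ D := hD ▸ one_le_derivBoundConst
  obtain ⟨C, hC⟩ : ∃ C, C = min C₀ 1 := ⟨_, rfl⟩
  have hC0 : 0 < C := hC ▸ lt_min hC₀ one_pos
  have hC1 : C ≤ 1 := hC ▸ min_le_right _ _
  refine ⟨C / (4 * D), 1 / 8, by positivity, ?_, by norm_num,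
    fun q _ χ hχ hχ2 σ t τ hτ ht hσ hσ2 => ?_⟩
  · rw [div_le_one (by positivity)]
    linarith
  obtain ⟨L, hL⟩ : ∃ L, L = lg q t := ⟨_, rfl⟩
  rw [← hL] at hτ
  have hL4 : 4 ≤ L := hL ▸ four_le_lg q t
  have hqε : (q : ℝ) ^ (-ε) ≤ 1 :=
    Real.rpow_le_one_of_one_le_of_nonpos (by exact_mod_cast NeZero.one_le) (by linarith)
  have hqε0 : 0 < (q : ℝ) ^ (-ε) := Real.rpow_pos_of_pos (Nat.cast_pos.2 (NeZero.pos q)) _
  have hτ0 : 0 < τ := by rw [hτ]; positivity
  have hτD : 4 * D * L ^ 2 * τ = C * (q : ℝ) ^ (-ε) := by rw [hτ]; field_simp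
  have hτL : τ ≤ 1 / L := by
    rw [le_div_iff₀ (by linarith)]
    have h1 : C * (q : ℝ) ^ (-ε) ≤ 1 := mul_le_one₀ hC1 hqε0.le hqε
    have h2 : τ * L * 1 ≤ τ * L * (4 * D * L) :=
      mul_le_mul_of_nonneg_left (by nlinarith) (by positivity)
    nlinarith
  rcases le_or_gt (1 + τ) σ with h | h
  · obtain ⟨δ, hδ⟩ : ∃ δ, δ = σ - 1 := ⟨_, rfl⟩
    have hδ0 : 0 < δ := by linarith
    have h341 := norm_product_ge_one χ hδ0 t
    rw [show (1 + δ + I * t : ℂ) = σ + t * I by rw [hδ]; push_cast; ring] at h341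
    have h0 : ‖LFunctionTrivChar q (1 + δ)‖ ≤ 4 / δ := by
      have := norm_LFunction_le_div (1 : DirichletCharacter ℂ q) (w := 1 + δ) (by simp; linarith)
        (by simp; linarith)
      simpa using this
    have h2 : ‖LFunction (χ ^ 2) (1 + δ + 2 * I * t)‖ ≤ 4 / δ := by
      have := norm_LFunction_le_div (χ ^ 2) (w := 1 + δ + 2 * I * t) (by simp; linarith)
        (by simp; linarith)
      simpa using this
    have hd3 := h341.trans (mul_le_mul (mul_le_mul_of_nonneg_right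
      (pow_le_pow_left₀ (norm_nonneg _) h0 3) (by positivity)) h2 (norm_nonneg _) (by positivity))
    refine le_trans ?_ (le_of_pow_le_pow_left₀ four_ne_zero (norm_nonneg _) (a := δ / 4) ?_)
    · linarith
    · have h5 := mul_le_mul_of_nonneg_left hd3 (pow_nonneg hδ0.le 4)
      rw [mul_one] at h5
      rw [div_pow, div_le_iff₀ (by norm_num)]
      refine h5.trans (le_of_eq ?_)
      field_simp
  · have h1 : C * (q : ℝ) ^ (-ε) ≤ ‖LFunction χ 1‖ :=
      ((mul_le_mul_of_nonneg_right (hC ▸ min_le_left _ _) hqε0.le).trans (hS q χ hχ hχ2)).trans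
        (Complex.re_le_norm _)
    have hmv := (convex_closedBall (1 : ℂ) (2 * τ)).norm_image_sub_le_of_norm_deriv_le
      (f := LFunction χ) (fun z _ => (differentiable_LFunction hχ) z)
      (C := D * (5 / 4 * L) ^ 2) (fun z hz => ?_) (x := 1) (y := σ + t * I)
      (Metric.mem_closedBall_self (by linarith)) ?_
    · have h3 : ‖(σ + t * I : ℂ) - 1‖ ≤ 2 * τ := by
        refine (Complex.norm_le_abs_re_add_abs_im _).trans ?_
        simp
        have : |σ - 1| ≤ τ := abs_le.2 ⟨by linarith, by linarith⟩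
        linarith
      have h4 := norm_sub_norm_le (LFunction χ 1) (LFunction χ (σ + t * I))
      rw [norm_sub_rev (LFunction χ 1)] at h4
      have h6 := hmv.trans (mul_le_mul_of_nonneg_left h3 (by positivity))
      have h7 : D * (5 / 4 * L) ^ 2 * (2 * τ) = 25 / 32 * (4 * D * L ^ 2 * τ) := by ring
      rw [h7, hτD] at h6
      have h8 : 1 * τ ≤ 4 * D * L ^ 2 * τ :=
        mul_le_mul_of_nonneg_right (by nlinarith) hτ0.le
      rw [hτD] at h8
      nlinarith
    · rw [Metric.mem_closedBall, dist_eq_norm] at hz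
      have hre := abs_le.1 ((Complex.abs_re_le_norm (z - 1)).trans hz)
      have him := (Complex.abs_im_le_norm (z - 1)).trans hz
      simp at hre him
      have hL14 : 1 / L ≤ 1 / 4 := one_div_le_one_div_of_le (by norm_num) hL4
      have hzt : |z.im - t| ≤ 1 := by
        have := abs_sub z.im t
        linarith
      have hLz : lg q z.im ≤ 5 / 4 * L := hL ▸ lg_near hzt
      have hτ2 : 2 * τ ≤ 1 / (5 / 4 * L) := by
        rw [le_div_iff₀ (by positivity)]
        have h1 : C * (q : ℝ) ^ (-ε) ≤ 1 := mul_le_one₀ hC1 hqε0.le hqε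
        have h2 : τ * L * (5 / 2) ≤ τ * L * (4 * D * L) :=
          mul_le_mul_of_nonneg_left (by nlinarith) (by positivity)
        nlinarith
      have h5 : 1 / (5 / 4 * L) ≤ 1 / lg q z.im :=
        one_div_le_one_div_of_le (lg_pos q _) hLz
      refine (norm_deriv_LFunction_le hχ (by linarith) (by linarith)).trans ?_
      rw [hD, derivBoundConst]
      exact mul_le_mul_of_nonneg_left (pow_le_pow_left₀ (lg_pos q _).le hLz 2)
        (by linarith [one_le_upperBoundConst])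
    · rw [Metric.mem_closedBall, dist_eq_norm]
      refine (Complex.norm_le_abs_re_add_abs_im _).trans ?_
      simp
      have : |σ - 1| ≤ τ := abs_le.2 ⟨by linarith, by linarith⟩
      linarith

/-- **The region.** -/
theorem exists_region (ε : ℝ) (hε : 0 < ε) : ∃ a A, 0 < a ∧ a ≤ 1 ∧ 0 < A ∧
    ∀ (q : ℕ) [NeZero q] (χ : DirichletCharacter ℂ q), χ ≠ 1 → ∀ s : ℂ,
    1 - a * (q : ℝ) ^ (-ε) / lg q s.im ^ 12 ≤ s.re → s.re ≤ 2 →
      LFunction χ s ≠ 0 ∧
        ‖deriv (LFunction χ) s / LFunction χ s‖ ≤ A * (q : ℝ) ^ ε * lg q s.im ^ 12 := by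
  obtain ⟨b, hb, hb1, hlow⟩ := exists_lower_bound
  obtain ⟨c, C, hc, hc1, hC, hreal⟩ := exists_lower_bound_real ε hε
  obtain ⟨D, hD⟩ : ∃ D, D = derivBoundConst := ⟨_, rfl⟩
  have hD1 : 1 ≤ D := hD ▸ one_le_derivBoundConst
  refine ⟨b * c, 1 / (2 * (b * c)) + D / (C * c), by positivity, mul_le_one₀ hb1 hc.le hc1,
    by positivity, fun q _ χ hχ s hs hs2 => ?_⟩
  obtain ⟨L, hL⟩ : ∃ L, L = lg q s.im := ⟨_, rfl⟩
  rw [← hL] at hs ⊢
  have hL4 : 4 ≤ L := hL ▸ four_le_lg q _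
  have hq0 : (0 : ℝ) < q := Nat.cast_pos.2 (NeZero.pos q)
  obtain ⟨p, hp⟩ : ∃ p, p = (q : ℝ) ^ (-ε) := ⟨_, rfl⟩
  have hp0 : 0 < p := hp ▸ Real.rpow_pos_of_pos hq0 _
  have hp1 : p ≤ 1 := hp ▸
    Real.rpow_le_one_of_one_le_of_nonpos (by exact_mod_cast NeZero.one_le) (by linarith)
  have hpi : (q : ℝ) ^ ε = 1 / p := by rw [hp, Real.rpow_neg hq0.le, one_div, inv_inv]
  rw [← hp] at hs
  rw [hpi]
  obtain ⟨τ, hτ⟩ : ∃ τ, τ = c * p / L ^ 2 := ⟨_, rfl⟩
  have hτ0 : 0 < τ := by rw [hτ]; positivity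
  have hτ1 : τ ≤ 1 := by
    rw [hτ, div_le_one (by positivity)]
    exact (mul_le_one₀ hc1 hp0.le hp1).trans (one_le_pow₀ (by linarith))
  obtain ⟨η, hη⟩ : ∃ η, η = b * c * p / L ^ 12 := ⟨_, rfl⟩
  have hη0 : 0 < η := by rw [hη]; positivity
  rw [← hη] at hs
  have hηL : η ≤ 1 / L := by
    rw [hη]
    exact (div_le_div_of_nonneg_right (mul_le_one₀ (mul_le_one₀ hb1 hc.le hc1) hp0.le hp1)
      (by positivity)).trans
      (one_div_le_one_div_of_le (by linarith) (le_self_pow₀ (by linarith) (by norm_num)))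
  have hd : ‖deriv (LFunction χ) s‖ ≤ D * L ^ 2 := by
    rw [hD, derivBoundConst, hL]
    exact norm_deriv_LFunction_le hχ (by rw [← hL]; linarith) hs2
  rw [← Complex.re_add_im s] at hd ⊢
  by_cases hcase : χ ^ 2 = 1 ∧ |s.im| ≤ τ
  · have hτη : η ≤ τ := by
      rw [hη, hτ]
      refine div_le_div₀ (by positivity) ?_ (by positivity)
        (pow_le_pow_right₀ (by linarith) (by norm_num))
      exact mul_le_mul_of_nonneg_right (mul_le_of_le_one_left hc.le hb1) hp0.le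
    have hlb := hreal q χ hχ hcase.1 s.re s.im τ (by rw [hτ, hp, hL]) hcase.2 (by linarith) hs2
    have hpos : 0 < C * τ := by positivity
    refine ⟨norm_pos_iff.1 (hpos.trans_le hlb), ?_⟩
    rw [norm_div]
    refine (div_le_div₀ (by positivity) hd hpos hlb).trans ?_
    have e : D * L ^ 2 / (C * τ) = D / (C * c) * (1 / p) * L ^ 4 := by
      rw [hτ]
      field_simp
    rw [e]
    gcongr
    · exact le_add_of_nonneg_left (by positivity)
    · linarith
    · norm_num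
  · have ht : χ ^ 2 = 1 → τ ≤ |s.im| := fun h => (not_le.1 fun h' => hcase ⟨h, h'⟩).le
    have hlb := hlow q χ hχ s.re s.im τ η hτ0 hτ1 ht hη0 (le_of_eq ?_) (by linarith) hs2
    · rw [← hD, ← hL] at hlb
      have hpos : 0 < 2 * η * D * L ^ 2 := by positivity
      refine ⟨norm_pos_iff.1 (hpos.trans_le hlb), ?_⟩
      rw [norm_div]
      refine (div_le_div₀ (by positivity) hd hpos hlb).trans ?_
      have e : D * L ^ 2 / (2 * η * D * L ^ 2) = 1 / (2 * (b * c)) * (1 / p) * L ^ 12 := by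
        rw [hη]
        field_simp
      rw [e]
      gcongr
      exact le_add_of_nonneg_right (by positivity)
    · rw [hη, hτ, ← hL]
      field_simp

end FA.SiegelWalfisz
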