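import Fermat.Agent.ZeroFreeRegion.LowerBound
import Fermat.Agent.Tau.SiegelBound
import Mathlib.Analysis.Complex.Liouville
import Mathlib.NumberTheory.Harmonic.Bounds

/-!
# Dirichlet L-functions near the line `re s = 1`, uniformly in the modulus

With `lg q t = log q + log (|t| + 100)`: `L(σ + it, χ) = O (lg q t)` for `σ ≥ 1 - 2 / lg q t` and
`L'(σ + it, χ) = O (lg q t ^ 2)` for `σ ≥ 1 - 1 / lg q t`, for `χ ≠ 1`; for the trivial character
`L(σ + it, 1) = O (lg q t ^ 2 / τ)` for `σ > 1` and `|t| ≥ τ`.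
-/

set_option autoImplicit false

noncomputable section

namespace FA.SiegelWalfisz

open Complex MeasureTheory Finset
open FA.Siegel (charSum tail)

/-- The logarithm used in all bounds. -/
def lg (q : ℕ) (t : ℝ) : ℝ := Real.log q + ZeroFree.ell t

theorem ell_le_lg (q : ℕ) (t : ℝ) : ZeroFree.ell t ≤ lg q t :=
  le_add_of_nonneg_left (Real.log_natCast_nonneg q)

theorem four_le_lg (q : ℕ) (t : ℝ) : 4 ≤ lg q t :=
  (ZeroFree.four_le_ell t).trans (ell_le_lg q t)

theorem lg_pos (q : ℕ) (t : ℝ) : 0 < lg q t := by linarith [four_le_lg q t]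

theorem lg_mono {q : ℕ} {s t : ℝ} (h : |s| ≤ |t|) : lg q s ≤ lg q t := by
  unfold lg
  linarith [ZeroFree.ell_mono h]

theorem lg_two_mul (q : ℕ) (t : ℝ) : lg q (2 * t) ≤ 2 * lg q t := by
  unfold lg
  linarith [ZeroFree.ell_two_mul t, Real.log_natCast_nonneg q]

theorem lg_near {q : ℕ} {s t : ℝ} (h : |s - t| ≤ 1) : lg q s ≤ 5 / 4 * lg q t := by
  unfold lg
  linarith [ZeroFree.ell_near h, Real.log_natCast_nonneg q]

variable {q : ℕ} [NeZero q]

omit [NeZero q] in
theorem charSum_eq_of_mem {χ : DirichletCharacter ℂ q} {k : ℕ} {t : ℝ}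
    (ht : t ∈ Set.Ioo (k : ℝ) (k + 1 : ℕ)) : charSum χ t = charSum χ k := by
  have h : ⌊t⌋₊ = k := by
    rw [Nat.floor_eq_iff ((Nat.cast_nonneg k).trans ht.1.le)]
    exact ⟨ht.1.le, by exact_mod_cast ht.2⟩
  simp [charSum, h]

/-- **The truncated series.** -/
theorem lfunction_truncated {χ : DirichletCharacter ℂ q} (hχ : χ ≠ 1) {s : ℂ} (hs : 0 < s.re)
    {N : ℕ} (hN : 1 ≤ N) :
    DirichletCharacter.LFunction χ s = ∑ n ∈ Icc 1 N, χ n * (n : ℂ) ^ (-s) -
      charSum χ N * (N : ℂ) ^ (-s) +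
      s * ∫ t in Set.Ioi (N : ℝ), charSum χ t * (t : ℂ) ^ (-(s + 1)) := by
  have hs0 : s ≠ 0 := fun h => by simp [h] at hs
  induction N, hN using Nat.le_induction with
  | base =>
    rw [Siegel.lfunction_eq hχ hs, tail]
    simp [charSum]
  | succ k hk ih =>
    have hk0 : (0 : ℝ) < k := Nat.cast_pos.2 hk
    have hint := Siegel.integrable_integrand hχ hs
    have hk1 : (k : ℝ) ≤ (k + 1 : ℕ) := Nat.cast_le.2 (Nat.le_succ k)
    have hsub : Set.Ioi (k : ℝ) ⊆ Set.Ioi 1 := Set.Ioi_subset_Ioi (by exact_mod_cast hk)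
    have hsplit := setIntegral_union (μ := volume)
      (f := fun t : ℝ => charSum χ t * (t : ℂ) ^ (-(s + 1)))
      (Set.Ioc_disjoint_Ioi (le_refl ((k + 1 : ℕ) : ℝ))) measurableSet_Ioi
      (hint.mono_set (Set.Ioc_subset_Ioi_self.trans hsub))
      (hint.mono_set ((Set.Ioi_subset_Ioi hk1).trans hsub))
    rw [Set.Ioc_union_Ioi_eq_Ioi hk1] at hsplit
    have hpiece : ∫ t in Set.Ioc (k : ℝ) (k + 1 : ℕ), charSum χ t * (t : ℂ) ^ (-(s + 1)) =
        charSum χ k * ((((k + 1 : ℕ) : ℂ) ^ (-s) - (k : ℂ) ^ (-s)) / (-s)) := by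
      rw [integral_Ioc_eq_integral_Ioo, setIntegral_congr_fun measurableSet_Ioo
        (g := fun t : ℝ => charSum χ k * (t : ℂ) ^ (-(s + 1)))
          (fun t ht => by simp only [charSum_eq_of_mem ht]),
        ← integral_Ioc_eq_integral_Ioo, integral_const_mul,
        ← intervalIntegral.integral_of_le hk1, integral_cpow (Or.inr ⟨?_, ?_⟩)]
      · rw [show -(s + 1) + 1 = -s by ring]
        push_cast
        rfl
      · intro h
        exact hs0 (by linear_combination -h)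
      · rw [Set.uIcc_of_le hk1]
        exact fun h => absurd h.1 (not_le.2 hk0)
    have hS : charSum χ ((k + 1 : ℕ) : ℝ) = charSum χ k + χ ((k + 1 : ℕ) : ZMod q) := by
      simp only [charSum, Nat.floor_natCast]
      rw [sum_Icc_succ_top (by omega)]
    rw [ih, hsplit, hpiece, hS, sum_Icc_succ_top (by omega)]
    field_simp
    ring

/-- The constant of `norm_LFunction_le`. -/
def upperBoundConst : ℝ := 3 * Real.exp 3

theorem one_le_upperBoundConst : 1 ≤ upperBoundConst := by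
  unfold upperBoundConst
  linarith [Real.add_one_le_exp 3]

/-- **The upper bound.** -/
theorem norm_LFunction_le {χ : DirichletCharacter ℂ q} (hχ : χ ≠ 1) {s : ℂ}
    (hs : 1 - 2 / lg q s.im ≤ s.re) (hs3 : s.re ≤ 3) :
    ‖DirichletCharacter.LFunction χ s‖ ≤ upperBoundConst * lg q s.im := by
  obtain ⟨L, hL⟩ : ∃ L, L = lg q s.im := ⟨_, rfl⟩
  rw [← hL] at hs ⊢
  have hL4 : 4 ≤ L := hL ▸ four_le_lg q _
  have h2L : 2 / L ≤ 1 / 2 := by rw [div_le_iff₀ (by linarith)]; linarith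
  have hsre : 0 < s.re := by linarith
  have hq : (1 : ℝ) ≤ q := by exact_mod_cast NeZero.one_le
  obtain ⟨X, hX⟩ : ∃ X : ℝ, X = q * (|s.im| + 100) := ⟨_, rfl⟩
  have hX0 : 100 ≤ X := by rw [hX]; nlinarith [abs_nonneg s.im]
  have hXlog : Real.log X = L := by
    rw [hX, hL, lg, ZeroFree.ell, Real.log_mul (by linarith) (by positivity)]
  obtain ⟨N, hN⟩ : ∃ N : ℕ, N = ⌈X⌉₊ := ⟨_, rfl⟩
  have hNX : X ≤ N := hN ▸ Nat.le_ceil X
  have hNX' : (N : ℝ) ≤ 2 * X := by
    have := Nat.ceil_lt_add_one (show 0 ≤ X by linarith)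
    rw [← hN] at this
    linarith
  have hN1 : 1 ≤ N := by
    have : (1 : ℝ) ≤ N := by linarith
    exact_mod_cast this
  have hlogN : Real.log N ≤ L + 1 := by
    refine (Real.log_le_log (Nat.cast_pos.2 hN1) hNX').trans ?_
    rw [Real.log_mul two_ne_zero (by linarith), hXlog]
    linarith [Real.log_two_lt_d9]
  obtain ⟨E, hE⟩ : ∃ E : ℝ, E = Real.exp 3 := ⟨_, rfl⟩
  have hE0 : 0 < E := hE ▸ Real.exp_pos 3
  have hterm : ∀ n ∈ Icc 1 N, (n : ℝ) ^ (-s.re) ≤ E / n := by
    intro n hn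
    rw [mem_Icc] at hn
    have hn0 : (0 : ℝ) < n := Nat.cast_pos.2 hn.1
    rw [le_div_iff₀ hn0, ← Real.rpow_add_one hn0.ne']
    refine (Real.rpow_le_rpow_of_exponent_le (by exact_mod_cast hn.1)
      (show -s.re + 1 ≤ 2 / L by linarith)).trans ?_
    rw [Real.rpow_def_of_pos hn0, hE]
    refine Real.exp_le_exp.2 ?_
    have h1 : Real.log n ≤ L + 1 :=
      (Real.log_le_log hn0 (Nat.cast_le.2 hn.2)).trans hlogN
    calc Real.log n * (2 / L) ≤ (L + 1) * (2 / L) :=
          mul_le_mul_of_nonneg_right h1 (by positivity)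
      _ = 2 + 2 / L := by field_simp
      _ ≤ 3 := by linarith
  have hNend := hterm N (mem_Icc.2 ⟨hN1, le_rfl⟩)
  have hN0 : (0 : ℝ) < N := Nat.cast_pos.2 hN1
  have hqN : (q : ℝ) * (|s.im| + 100) ≤ N := hX ▸ hNX
  rw [lfunction_truncated hχ hsre hN1]
  have h1 : ‖∑ n ∈ Icc 1 N, χ n * (n : ℂ) ^ (-s)‖ ≤ E * (L + 2) := by
    refine (norm_sum_le _ _).trans ((sum_le_sum (g := fun n : ℕ => E * (n : ℝ)⁻¹)
      fun n hn => ?_).trans ?_)
    · rw [norm_mul, Complex.norm_natCast_cpow_of_pos (mem_Icc.1 hn).1, neg_re, ← div_eq_mul_inv]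
      exact (mul_le_of_le_one_left (Real.rpow_nonneg (Nat.cast_nonneg n) _)
        (χ.norm_le_one _)).trans (hterm n hn)
    · rw [← mul_sum]
      refine mul_le_mul_of_nonneg_left ?_ hE0.le
      have := harmonic_le_one_add_log N
      rw [harmonic_eq_sum_Icc] at this
      push_cast at this
      linarith
  have h2 : ‖charSum χ N * (N : ℂ) ^ (-s)‖ ≤ E := by
    rw [norm_mul, Complex.norm_natCast_cpow_of_pos hN1, neg_re]
    refine (mul_le_mul (Siegel.norm_charSum_le hχ _) hNend (by positivity)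
      (Nat.cast_nonneg q)).trans ?_
    rw [mul_div_assoc', div_le_iff₀ hN0, mul_comm E]
    refine mul_le_mul_of_nonneg_right ?_ hE0.le
    nlinarith [abs_nonneg s.im]
  have h3 : ‖s * ∫ t in Set.Ioi (N : ℝ), charSum χ t * (t : ℂ) ^ (-(s + 1))‖ ≤ 2 * E := by
    have hns : ‖s‖ ≤ |s.im| + 100 := by
      refine (Complex.norm_le_abs_re_add_abs_im s).trans ?_
      rw [abs_of_pos hsre]
      linarith
    have hint2 : ‖∫ t in Set.Ioi (N : ℝ), charSum χ t * (t : ℂ) ^ (-(s + 1))‖ ≤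
        q * ((N : ℝ) ^ (-s.re) / s.re) := by
      refine (norm_integral_le_of_norm_le ((integrableOn_Ioi_rpow_of_lt (a := -(s.re + 1))
        (by linarith) hN0).const_mul (q : ℝ)) ?_).trans (le_of_eq ?_)
      · filter_upwards [ae_restrict_mem measurableSet_Ioi] with t ht
        exact Siegel.norm_integrand_le hχ (hN0.trans (Set.mem_Ioi.1 ht))
      · rw [integral_const_mul, integral_Ioi_rpow_of_lt (by linarith) hN0,
          show -(s.re + 1) + 1 = -s.re by ring, neg_div_neg_eq]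
    rw [norm_mul]
    refine (mul_le_mul hns hint2 (norm_nonneg _) (by positivity)).trans ?_
    · have h4 : (N : ℝ) ^ (-s.re) / s.re ≤ E / N / (1 / 2) :=
        div_le_div₀ (by positivity) hNend (by norm_num) (by linarith)
      refine (mul_le_mul_of_nonneg_left (mul_le_mul_of_nonneg_left h4 (Nat.cast_nonneg q))
        (by positivity)).trans ?_
      rw [show (|s.im| + 100) * ((q : ℝ) * (E / N / (1 / 2))) =
        2 * E * ((q : ℝ) * (|s.im| + 100) / N) by ring]
      exact mul_le_of_le_one_right (by linarith) ((div_le_one hN0).2 hqN)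
  refine (norm_add_le _ _).trans ((add_le_add (norm_sub_le _ _) le_rfl).trans ?_)
  refine (add_le_add (add_le_add h1 h2) h3).trans ?_
  rw [upperBoundConst, ← hE]
  nlinarith

/-- **The derivative.** -/
theorem norm_deriv_LFunction_le {χ : DirichletCharacter ℂ q} (hχ : χ ≠ 1) {s : ℂ}
    (hs : 1 - 1 / lg q s.im ≤ s.re) (hs2 : s.re ≤ 2) :
    ‖deriv (DirichletCharacter.LFunction χ) s‖ ≤ 5 * upperBoundConst * lg q s.im ^ 2 := by
  obtain ⟨L, hL⟩ : ∃ L, L = lg q s.im := ⟨_, rfl⟩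
  rw [← hL] at hs ⊢
  have hL4 : 4 ≤ L := hL ▸ four_le_lg q _
  have hU := one_le_upperBoundConst
  refine (Complex.norm_deriv_le_of_forall_mem_sphere_norm_le (R := 1 / (4 * L))
    (C := upperBoundConst * (5 / 4 * L)) (by positivity)
    ((DirichletCharacter.differentiable_LFunction hχ).diffContOnCl) fun w hw => ?_).trans
      (le_of_eq (by field_simp))
  rw [mem_sphere_iff_norm] at hw
  have hr1 : 1 / (4 * L) ≤ 1 := by rw [div_le_one (by positivity)]; linarith
  have hre := abs_le.1 ((Complex.abs_re_le_norm (w - s)).trans hw.le)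
  have him : |w.im - s.im| ≤ 1 :=
    ((le_of_eq (by rw [sub_im])).trans (Complex.abs_im_le_norm (w - s))).trans (hw.le.trans hr1)
  have hLw : lg q w.im ≤ 5 / 4 * L := hL ▸ lg_near him
  rw [sub_re] at hre
  refine (norm_LFunction_le hχ ?_ (by linarith)).trans
    (mul_le_mul_of_nonneg_left hLw (by linarith))
  have h2 : 2 / (5 / 4 * L) ≤ 2 / lg q w.im :=
    div_le_div_of_nonneg_left two_pos.le (lg_pos q _) hLw
  have h3 : 2 / (5 / 4 * L) = 1 / L + 3 / 5 * (1 / L) := by field_simp; ring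
  have h4 : 1 / (4 * L) = 1 / 4 * (1 / L) := by field_simp
  have h5 : 0 < 1 / L := by positivity
  linarith

/-! ### The trivial character -/

theorem prod_one_add_inv_le (k : ℕ) : ∀ S : Finset ℕ, S.card = k → (∀ p ∈ S, 2 ≤ p) →
    ∏ p ∈ S, (1 + 1 / (p : ℝ)) ≤ ((k : ℝ) + 2) / 2 := by
  induction k with
  | zero =>
    intro S hS _
    rw [card_eq_zero.1 hS]
    simp
  | succ k ih =>
    intro S hS h2
    have hne : S.Nonempty := card_pos.1 (by omega)
    obtain ⟨m, hm, hmax⟩ : ∃ m ∈ S, ∀ p ∈ S, p ≤ m :=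
      ⟨S.max' hne, S.max'_mem hne, fun p hp => S.le_max' p hp⟩
    have hmk : k + 2 ≤ m := by
      have hsub : S ⊆ Icc 2 m := fun p hp => mem_Icc.2 ⟨h2 p hp, hmax p hp⟩
      have := card_le_card hsub
      rw [Nat.card_Icc, hS] at this
      omega
    have h1 := ih (S.erase m) (by rw [card_erase_of_mem hm, hS]; omega)
      fun p hp => h2 p (mem_of_mem_erase hp)
    rw [← mul_prod_erase S _ hm]
    have hm' : ((k : ℝ) + 2) ≤ m := by exact_mod_cast hmk
    refine (mul_le_mul (add_le_add le_rfl (one_div_le_one_div_of_le (by positivity) hm')) h1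
      (prod_nonneg fun p _ => by positivity) (by positivity)).trans (le_of_eq ?_)
    push_cast
    field_simp
    ring

theorem prod_primeFactors_le (t : ℝ) :
    ∏ p ∈ q.primeFactors, (1 + 1 / (p : ℝ)) ≤ 2 * lg q t := by
  refine (prod_one_add_inv_le _ q.primeFactors rfl
    fun p hp => (Nat.prime_of_mem_primeFactors hp).two_le).trans ?_
  have h1 : 2 ^ q.primeFactors.card ≤ q :=
    (pow_card_le_prod _ (fun p => p) _ fun p hp => (Nat.prime_of_mem_primeFactors hp).two_le).trans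
      (Nat.le_of_dvd (NeZero.pos q) (Nat.prod_primeFactors_dvd q))
  have h2 := Real.log_le_log (by positivity)
    (show ((2 : ℝ) ^ q.primeFactors.card) ≤ q by exact_mod_cast h1)
  rw [Real.log_pow] at h2
  have := Real.log_two_gt_d9
  have := ZeroFree.four_le_ell t
  have := Real.log_natCast_nonneg q
  have h0 : (0 : ℝ) ≤ q.primeFactors.card := Nat.cast_nonneg _
  unfold lg
  nlinarith

/-- **The trivial character** to the right of `1`, off the pole. -/
theorem exists_norm_trivChar_le : ∃ K, 1 ≤ K ∧ ∀ (q : ℕ) [NeZero q] (w : ℂ) (τ : ℝ),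
    1 < w.re → w.re ≤ 3 → 0 < τ → τ ≤ 1 → τ ≤ |w.im| →
    ‖DirichletCharacter.LFunctionTrivChar q w‖ ≤ K * lg q w.im ^ 2 / τ := by
  obtain ⟨M, hM⟩ := (IsCompact.reProdIm (isCompact_Icc (a := (1 : ℝ)) (b := 3))
    (isCompact_Icc (a := (-1 : ℝ)) (b := 1))).exists_bound_of_continuousOn
    (f := riemannZeta₁) differentiable_riemannZeta₁.continuous.continuousOn
  refine ⟨2 * (|M| + 4 * Real.exp 4), by linarith [abs_nonneg M, Real.add_one_le_exp 4],
    fun q _ w τ hw hw3 hτ hτ1 hwτ => ?_⟩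
  have hw1 : w ≠ 1 := fun h => by rw [h] at hw; simp at hw
  obtain ⟨L, hL⟩ : ∃ L, L = lg q w.im := ⟨_, rfl⟩
  rw [← hL]
  have hL4 : 4 ≤ L := hL ▸ four_le_lg q _
  have hprod : ‖∏ p ∈ q.primeFactors, (1 - (p : ℂ) ^ (-w))‖ ≤ 2 * L := by
    rw [norm_prod]
    refine (prod_le_prod (fun p _ => norm_nonneg _) fun p hp => ?_).trans
      (hL ▸ prod_primeFactors_le (q := q) w.im)
    have hp := Nat.prime_of_mem_primeFactors hp
    refine (norm_sub_le _ _).trans (add_le_add (le_of_eq norm_one) ?_)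
    rw [Complex.norm_natCast_cpow_of_pos hp.pos, neg_re, one_div, ← Real.rpow_neg_one]
    exact Real.rpow_le_rpow_of_exponent_le (by exact_mod_cast hp.one_lt.le) (by linarith)
  have hzeta : ‖riemannZeta w‖ ≤ (|M| + 4 * Real.exp 4) * L / τ := by
    rw [le_div_iff₀ hτ]
    rcases le_or_gt |w.im| 1 with h | h
    · rw [riemannZeta_eq_inv_sub_mul hw1, norm_mul, norm_inv]
      have h1 : τ ≤ ‖w - 1‖ := hwτ.trans
        ((le_of_eq (by simp)).trans (Complex.abs_im_le_norm (w - 1)))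
      have h2 := (hM w (Complex.mem_reProdIm.2 ⟨⟨hw.le, hw3⟩, abs_le.1 h⟩)).trans (le_abs_self M)
      calc ‖w - 1‖⁻¹ * ‖riemannZeta₁ w‖ * τ ≤ τ⁻¹ * |M| * τ := by
            gcongr
        _ = |M| := by field_simp
        _ ≤ _ := by nlinarith [abs_nonneg M, Real.exp_pos 4]
    · have hpos : 0 < 2 / ZeroFree.ell w.im := div_pos two_pos (ZeroFree.ell_pos _)
      have h1 := ZeroFree.norm_riemannZeta_le (s := w) h.le (by linarith)
      have h2 := ell_le_lg q w.im
      rw [← hL] at h2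
      refine (mul_le_of_le_one_right (norm_nonneg _) hτ1).trans (h1.trans ?_)
      nlinarith [abs_nonneg M, Real.exp_pos 4, ZeroFree.ell_pos w.im]
  rw [DirichletCharacter.LFunctionTrivChar_eq_mul_riemannZeta hw1, norm_mul]
  refine (mul_le_mul hprod hzeta (norm_nonneg _) (by linarith)).trans (le_of_eq ?_)
  ring

/-- The absolute bound to the right of `1`. -/
theorem norm_LFunction_le_div (χ : DirichletCharacter ℂ q) {w : ℂ} (hw : 1 < w.re)
    (hw2 : w.re ≤ 2) : ‖DirichletCharacter.LFunction χ w‖ ≤ 4 / (w.re - 1) := by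
  obtain ⟨δ, hδ⟩ : ∃ δ, δ = w.re - 1 := ⟨_, rfl⟩
  rw [← hδ]
  have hre : (1 : ℝ) < ((w.re : ℝ) : ℂ).re := by simpa using hw
  have hsum : LSeriesSummable (1 : ℕ → ℂ) ((w.re : ℝ) : ℂ) := LSeriesSummable_one_iff.2 hre
  rw [DirichletCharacter.LFunction_eq_LSeries χ hw, LSeries]
  have hle : ∀ n, ‖LSeries.term (fun n => χ n) w n‖ ≤
      ‖LSeries.term (1 : ℕ → ℂ) ((w.re : ℝ) : ℂ) n‖ := fun n => by
    rw [LSeries.norm_term_eq, LSeries.norm_term_eq]
    split_ifs
    · exact le_rfl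
    · rw [Complex.ofReal_re]
      gcongr
      simpa using χ.norm_le_one _
  refine (norm_tsum_le_tsum_norm (hsum.norm.of_nonneg_of_le (fun _ => norm_nonneg _) hle)).trans
    ((Summable.tsum_le_tsum hle (hsum.norm.of_nonneg_of_le (fun _ => norm_nonneg _) hle)
      hsum.norm).trans ?_)
  have hterm : ∀ n, LSeries.term (1 : ℕ → ℂ) ((w.re : ℝ) : ℂ) n =
      ((‖LSeries.term (1 : ℕ → ℂ) ((w.re : ℝ) : ℂ) n‖ : ℝ) : ℂ) := fun n => by
    rcases eq_or_ne n 0 with rfl | hn
    · simp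
    · have hn0 : (0 : ℝ) < n := Nat.cast_pos.2 (Nat.pos_of_ne_zero hn)
      rw [LSeries.norm_term_eq, if_neg hn, LSeries.term_of_ne_zero hn, Pi.one_apply, norm_one,
        Complex.ofReal_re]
      push_cast [Complex.ofReal_cpow hn0.le]
      rfl
  have hz : riemannZeta ((w.re : ℝ) : ℂ) =
      ((∑' n, ‖LSeries.term (1 : ℕ → ℂ) ((w.re : ℝ) : ℂ) n‖ : ℝ) : ℂ) := by
    rw [← LSeries_one_eq_riemannZeta hre, Complex.ofReal_tsum]
    exact tsum_congr hterm
  have h := ZeroFree.norm_zeta_real_le (δ := δ) (by linarith) (by linarith)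
  rw [show (1 + δ : ℂ) = ((w.re : ℝ) : ℂ) by rw [hδ]; push_cast; ring, hz, Complex.norm_real,
    Real.norm_eq_abs] at h
  exact (le_abs_self _).trans h

end FA.SiegelWalfisz
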