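import Fermat.Agent.SiegelWalfisz.ErrorTerm

/-!
# Consequences of the Siegel-Walfisz theorem

The same for `θ (x; q, a)`, the form with a power of `log x`, and a prime `≤ C exp (q ^ ε)` in every
class prime to `q`.
-/

set_option autoImplicit false

noncomputable section

namespace FA.SiegelWalfisz

open Real

theorem gauge_le_log_add_one {x : ℝ} (hx : 1 ≤ x) : gauge x ≤ log x + 1 := by
  have hl := log_nonneg hx
  rcases le_total (log x) 1 with h1 | h1
  · have := rpow_le_one hl h1 (by norm_num : (0 : ℝ) ≤ 1 / 15)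
    rw [gauge]
    linarith
  · have := rpow_le_rpow_of_exponent_le h1 (by norm_num : (1 / 15 : ℝ) ≤ 1)
    rw [rpow_one] at this
    rw [gauge]
    linarith

theorem psi_sub_theta_le {x c : ℝ} (hx : 2 ≤ x) (hc4 : c ≤ 1 / 4) :
    |Chebyshev.psi x - Chebyshev.theta x| ≤ 16 * x * exp (-(c * gauge x)) := by
  have hx0 : 0 < x := by linarith
  refine (Chebyshev.abs_psi_sub_theta_le_sqrt_mul_log (by linarith)).trans ?_
  have h3 : exp (-(1 / 4 * (log x + 1))) ≤ exp (-(c * gauge x)) := by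
    refine exp_le_exp.2 (neg_le_neg ?_)
    exact mul_le_mul hc4 (gauge_le_log_add_one (by linarith))
      (rpow_nonneg (log_nonneg (by linarith)) _) (by norm_num)
  refine le_trans ?_ (mul_le_mul_of_nonneg_left h3 (by positivity))
  have e1 : exp (-(1 / 4 * (log x + 1))) = x ^ (-(1 / 4) : ℝ) * exp (-(1 / 4)) := by
    rw [rpow_def_of_pos hx0, ← exp_add]
    ring_nf
  have e2 := log_le_rpow_div hx0.le (show (0 : ℝ) < 1 / 4 by norm_num)
  have e3 : 3 / 4 ≤ exp (-(1 / 4) : ℝ) := by linarith [add_one_le_exp (-(1 / 4) : ℝ)]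
  have hm : x ^ (1 / 2 : ℝ) * x ^ (1 / 4 : ℝ) = x * x ^ (-(1 / 4) : ℝ) := by
    nth_rewrite 3 [← rpow_one x]
    rw [← rpow_add hx0, ← rpow_add hx0]
    norm_num
  rw [sqrt_eq_rpow, e1]
  calc 2 * x ^ (1 / 2 : ℝ) * log x ≤ 2 * x ^ (1 / 2 : ℝ) * (x ^ (1 / 4 : ℝ) / (1 / 4)) :=
        mul_le_mul_of_nonneg_left e2 (by positivity)
    _ = 8 * (x * x ^ (-(1 / 4) : ℝ)) := by rw [← hm]; ring
    _ ≤ 16 * x * (x ^ (-(1 / 4) : ℝ) * exp (-(1 / 4))) := by
        have h0 : 0 ≤ x * x ^ (-(1 / 4) : ℝ) := by positivity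
        nlinarith

/-- The same for `θ (x; q, a)`. -/
theorem exists_thetaClass_error (A : ℝ) (hA : 0 < A) : ∃ c C, 0 < c ∧ 0 < C ∧
    ∀ (q : ℕ) [NeZero q] (a : ZMod q), IsUnit a → ∀ x : ℝ, 2 ≤ x →
    (q : ℝ) ≤ log x ^ A →
      |PNT.thetaClass a x - (q.totient : ℝ)⁻¹ * x| ≤ C * x * exp (-(c * gauge x)) := by
  obtain ⟨c, C, hc, hC, h⟩ := exists_psiClass_error A hA
  refine ⟨min c (1 / 4), C + 16, lt_min hc (by norm_num), by linarith,
    fun q _ a ha x hx hq => ?_⟩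
  have hg : 0 ≤ gauge x := rpow_nonneg (log_nonneg (by linarith)) _
  have h1 := abs_le.1 ((h q a ha x hx hq).trans (mul_le_mul_of_nonneg_left (exp_le_exp.2
    (neg_le_neg (mul_le_mul_of_nonneg_right (min_le_left c (1 / 4)) hg))) (by positivity)))
  have h2 := abs_le.1 (psi_sub_theta_le hx (min_le_right c (1 / 4)))
  have h3 := PNT.thetaClass_le_psiClass a x
  have h4 := PNT.psiClass_sub_thetaClass_le a x
  rw [abs_le]
  constructor <;> linarith

theorem exp_gauge_le (B : ℝ) (hB : 0 < B) {c : ℝ} (hc : 0 < c) : ∃ K, 0 < K ∧ ∀ x : ℝ, 2 ≤ x →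
    exp (-(c * gauge x)) ≤ K / log x ^ B := by
  obtain ⟨K, hK, h⟩ := exists_rpow_mul_exp_le (15 * B) hc
  refine ⟨K + 1, by linarith, fun x hx => ?_⟩
  have hl : 0 < log x := log_pos (by linarith)
  have e : log x ^ B = gauge x ^ (15 * B) := by
    rw [gauge, ← rpow_mul hl.le]
    congr 1
    ring
  have hg : 0 < gauge x := rpow_pos_of_pos hl _
  rw [e, le_div_iff₀ (rpow_pos_of_pos hg _), mul_comm]
  rcases le_total 1 (gauge x) with h1 | h1
  · linarith [h _ h1]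
  · have h2 := mul_le_one₀ (rpow_le_one hg.le h1 (by linarith : 0 ≤ 15 * B)) (exp_pos _).le
      (exp_le_one_iff.2 (show -(c * gauge x) ≤ 0 by nlinarith))
    linarith

/-- **A prime in every class.** -/
theorem exists_prime_class_le (ε : ℝ) (hε : 0 < ε) : ∃ C : ℝ, 0 < C ∧
    ∀ (q : ℕ) [NeZero q] (a : ZMod q), IsUnit a →
      ∃ p : ℕ, p.Prime ∧ (p : ZMod q) = a ∧ (p : ℝ) ≤ C * exp ((q : ℝ) ^ ε) := by
  obtain ⟨e, he⟩ : ∃ e, e = ε / 2 := ⟨_, rfl⟩
  have he0 : 0 < e := by linarith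
  obtain ⟨c, C, hc, hC, h⟩ := exists_thetaClass_error (1 / e) (by positivity)
  obtain ⟨K, hK, habs⟩ := exists_rpow_absorb (15 / e) hc
  obtain ⟨B, hB⟩ : ∃ B : ℝ, B = max 1 ((2 * (C * K) / c) ^ 15) := ⟨_, rfl⟩
  have hB1 : 1 ≤ B := hB ▸ le_max_left _ _
  refine ⟨exp (B ^ 2), exp_pos _, fun q _ a ha => ?_⟩
  have hq1 : (1 : ℝ) ≤ q := by exact_mod_cast NeZero.one_le
  obtain ⟨v, hv⟩ : ∃ v, v = (q : ℝ) ^ e := ⟨_, rfl⟩
  have hv1 : 1 ≤ v := hv ▸ one_le_rpow hq1 he0.le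
  have hBv : 1 ≤ B * v := one_le_mul_of_one_le_of_one_le hB1 hv1
  have hBv' : B ≤ B * v := le_mul_of_one_le_right (by linarith) hv1
  obtain ⟨x, hx⟩ : ∃ x, x = exp (B * v) := ⟨_, rfl⟩
  have hx0 : 0 < x := hx ▸ exp_pos _
  have hlog : log x = B * v := by rw [hx, log_exp]
  have hx2 : 2 ≤ x := by
    rw [hx]
    linarith [add_one_le_exp (B * v)]
  have hqx : (q : ℝ) ≤ log x ^ (1 / e) := by
    rw [hlog]
    refine le_trans ?_ (rpow_le_rpow (by linarith)
      (le_mul_of_one_le_left (by linarith) hB1) (by positivity))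
    rw [hv, ← rpow_mul (Nat.cast_nonneg q), mul_one_div_cancel he0.ne', rpow_one]
  obtain ⟨u, hu⟩ : ∃ u, u = gauge x := ⟨_, rfl⟩
  have hu1 : 1 ≤ u := by
    rw [hu, gauge, hlog]
    exact one_le_rpow hBv (by norm_num)
  have hbig : 2 * (C * K) / c ≤ u := by
    rw [hu, gauge, hlog]
    refine le_trans ?_ (rpow_le_rpow (by positivity)
      ((hB ▸ le_max_right _ _ : (2 * (C * K) / c) ^ 15 ≤ B).trans hBv') (by norm_num))
    rw [← rpow_natCast, ← rpow_mul (by positivity)]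
    norm_num
  have hqu : (q : ℝ) ≤ u ^ (15 / e) := by
    refine hqx.trans (le_of_eq ?_)
    rw [hu, gauge, ← rpow_mul (log_nonneg (by linarith))]
    congr 1
    field_simp
  have hsmall : C * exp (-(c * u)) < (q.totient : ℝ)⁻¹ := by
    rw [lt_inv_comm₀ (by positivity) (by exact_mod_cast Nat.totient_pos.2 (NeZero.pos q))]
    refine lt_of_le_of_lt (Nat.cast_le.2 (Nat.totient_le q)) ?_
    rw [inv_eq_one_div, lt_div_iff₀ (by positivity)]
    calc (q : ℝ) * (C * exp (-(c * u))) ≤ u ^ (15 / e) * (C * exp (-(c * u))) :=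
          mul_le_mul_of_nonneg_right hqu (by positivity)
      _ = C * (u ^ (15 / e) * exp (-(c * u))) := by ring
      _ ≤ C * (K * exp (-(c / 2 * u))) := mul_le_mul_of_nonneg_left (habs u hu1) hC.le
      _ < 1 := by
          rw [← mul_assoc, exp_neg, ← div_eq_mul_inv, div_lt_one (exp_pos _)]
          have h1 : C * K ≤ c / 2 * u := by
            rw [div_le_iff₀ hc] at hbig
            linarith
          linarith [add_one_le_exp (c / 2 * u)]
  have hpos : 0 < PNT.thetaClass a x := by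
    have h1 := (abs_le.1 (h q a ha x hx2 hqx)).1
    rw [← hu] at h1
    have h2 := mul_lt_mul_of_pos_right hsmall hx0
    linarith
  obtain ⟨p, hp, -⟩ := Finset.exists_ne_zero_of_sum_ne_zero hpos.ne'
  rw [Finset.mem_filter, Finset.mem_Icc] at hp
  refine ⟨p, hp.2.1, hp.2.2, ?_⟩
  refine ((Nat.cast_le.2 hp.1.2).trans (Nat.floor_le hx0.le)).trans ?_
  rw [hx, ← exp_add]
  refine exp_le_exp.2 ?_
  have h3 : v ^ 2 = (q : ℝ) ^ ε := by
    rw [hv, ← rpow_natCast, ← rpow_mul (Nat.cast_nonneg q), he]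
    norm_num
  nlinarith [sq_nonneg (B - v)]

end FA.SiegelWalfisz
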